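import Fermat.Agent.Mazur.Twist.Cyclo

/-!
# The ramification bound excludes ramified characters of order `p`

For odd `p`, a homomorphism `G_ℚ → ℤ/p` vanishing on a level satisfying Fontaine's bound
`p / (p - 1)` is trivial on inertia: its Kummer class over `ℚ(ζ_p)` is either unramified or
`1 + a (ζ - 1) + ⋯` with `a` a unit, and twists of the latter give too many classes.
-/

set_option autoImplicit false

open scoped Classical

noncomputable section

namespace Fermat.Agent.Mazur.Twist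

open Fermat.Agent Fermat.Agent.FlatJ0

local notation "Ω" => AlgebraicClosure ℚ
local notation "G_ℚ" => (AlgebraicClosure ℚ) ≃ₐ[ℚ] (AlgebraicClosure ℚ)

local instance isAlgebraicQbar_tw : Algebra.IsAlgebraic ℚ (AlgebraicClosure ℚ) :=
  AlgebraicClosure.isAlgebraic ℚ
local instance normalQbar_tw : Normal ℚ (AlgebraicClosure ℚ) :=
  have : IsAlgClosure ℚ (AlgebraicClosure ℚ) := ⟨inferInstance, inferInstance⟩
  IsAlgClosure.normal ℚ (AlgebraicClosure ℚ)

/-- The Lagrange resolvent of a homomorphism `G_ℚ → ℤ/p` over `ℚ(ζ)`. -/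
theorem exists_resolvent {p : ℕ} [Fact p.Prime] (f : G_ℚ → ZMod p)
    (hf : ∀ σ τ, f (σ * τ) = f σ + f τ) (M : IntermediateField ℚ Ω) [FiniteDimensional ℚ M]
    (hM : ∀ σ : G_ℚ, (∀ x ∈ M, σ x = x) → f σ = 0) {ζ : Ω} (hζ : IsPrimitiveRoot ζ p) :
    ∃ α : Ω, α ≠ 0 ∧ ∀ τ : G_ℚ, τ ζ = ζ → τ α = ζ ^ (f τ).val * α := by
  have : Normal ℚ Ω := normalQbar_tw
  have hζint : IsIntegral ℚ ζ := Algebra.IsIntegral.isIntegral ζ
  have := IntermediateField.adjoin.finiteDimensional hζint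
  set L := IntermediateField.normalClosure ℚ (↥(M ⊔ IntermediateField.adjoin ℚ ({ζ} : Set Ω))) Ω
    with hL
  have hle : M ⊔ IntermediateField.adjoin ℚ ({ζ} : Set Ω) ≤ L :=
    IntermediateField.le_normalClosure _
  have hML : M ≤ L := le_sup_left.trans hle
  have hζL : ζ ∈ L := hle ((le_sup_right : IntermediateField.adjoin ℚ ({ζ} : Set Ω) ≤ _)
    (IntermediateField.mem_adjoin_simple_self ℚ ζ))
  have : FiniteDimensional ℚ L := normalClosure.is_finiteDimensional ℚ _ Ω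
  have : Normal ℚ L := normalClosure.normal ℚ _ Ω
  let ψ : AddChar (ZMod p) Ω := AddChar.zmodChar p hζ.pow_eq_one
  have hψ : ∀ a, ψ a = ζ ^ a.val := AddChar.zmodChar_apply _
  let C : (L ≃ₐ[ℚ] L) → ZMod p := fun g => f (g.liftNormal Ω)
  have hlift : ∀ g : L ≃ₐ[ℚ] L, ∀ x : L, g.liftNormal Ω (x : Ω) = (g x : Ω) :=
    fun g x => g.liftNormal_commutes Ω x
  have hagree : ∀ σ τ : G_ℚ, (∀ x : L, σ (x : Ω) = τ (x : Ω)) → f σ = f τ := fun σ τ hx => by
    have h0 : f (σ⁻¹ * τ) = 0 := hM _ fun x hxM => by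
      rw [AlgEquiv.mul_apply, ← hx ⟨x, hML hxM⟩]
      exact σ.symm_apply_apply x
    have := hf σ (σ⁻¹ * τ)
    rw [mul_inv_cancel_left, h0, add_zero] at this
    exact this.symm
  let S : Finset (L ≃ₐ[ℚ] L) := Finset.univ.filter fun g => (g ⟨ζ, hζL⟩ : Ω) = ζ
  let R : L → Ω := fun x => ∑ g ∈ S, ψ (-C g) * (g x : Ω)
  have hR : ∀ x, ∀ τ : G_ℚ, τ ζ = ζ → τ (R x) = ψ (f τ) * R x := by
    intro x τ hτ
    let t : L ≃ₐ[ℚ] L := AlgEquiv.restrictNormalHom L τ
    have ht : ∀ y : L, τ (y : Ω) = (t y : Ω) := fun y => (τ.restrictNormal_commutes L y).symm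
    have hC : ∀ g : L ≃ₐ[ℚ] L, C (t * g) = f τ + C g := fun g => by
      rw [← hf]
      exact hagree _ _ fun y => by rw [hlift, AlgEquiv.mul_apply, AlgEquiv.mul_apply, hlift, ht]
    simp only [R, map_sum, Finset.mul_sum]
    refine Finset.sum_equiv (Equiv.mulLeft t) (fun g => ?_) fun g _ => ?_
    · simp only [S, Finset.mem_filter, Finset.mem_univ, true_and, Equiv.coe_mulLeft,
        AlgEquiv.mul_apply]
      rw [← ht]
      exact ⟨fun e => by rw [e, hτ], fun e => τ.injective (e.trans hτ.symm)⟩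
    · rw [Equiv.coe_mulLeft, ← mul_assoc, ← AddChar.map_add_eq_mul, hC, neg_add,
        add_neg_cancel_left, map_mul, hψ, map_pow, hτ, AlgEquiv.mul_apply, ht]
  obtain ⟨x, hx⟩ : ∃ x, R x ≠ 0 := by
    by_contra! h
    have hinj : Function.Injective (fun g : L ≃ₐ[ℚ] L =>
        ((algebraMap L Ω).comp (g : L →+* L)).toMonoidHom) := fun g g' hgg =>
      AlgEquiv.ext fun y => (algebraMap L Ω).injective (DFunLike.congr_fun hgg y)
    have h1 : (1 : L ≃ₐ[ℚ] L) ∈ S := by simp [S]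
    have := linearIndependent_iff'.mp ((linearIndependent_monoidHom L Ω).comp _ hinj) S
      (fun g => ψ (-C g)) (funext fun y => by
        rw [Finset.sum_apply]
        exact h y) 1 h1
    rw [hψ] at this
    exact pow_ne_zero _ (hζ.ne_zero (Fact.out : p.Prime).ne_zero) this
  exact ⟨R x, hx, fun τ hτ => by rw [← hψ]; exact hR x τ hτ⟩

variable {A : ValuationSubring Ω} {p : ℕ} (h : IsOver A p)

include h

/-- The twisted classes of `1 + a (ζ - 1)` cannot satisfy the bound. -/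
lemma false_of_leading_one {N : Subgroup G_ℚ} (hN : Bound A p N)
    (hfin : (N.subgroupOf (A.inertiaSubgroupIn ℚ)).FiniteIndex) (hp2 : p ≠ 2) {ζ α a : Ω}
    (hζ : IsPrimitiveRoot ζ p)
    (hαN : ∀ τ ∈ N, τ ∈ stabIn (A.inertiaSubgroupIn ℚ) (ζ - 1) → τ α = α)
    (hα0 : α ≠ 0) (hαord : ord A p α = 0)
    (hrfix : ∀ τ ∈ stabIn (A.inertiaSubgroupIn ℚ) (ζ - 1), τ (α ^ p) = α ^ p)
    (hr : α ^ p = 1 + (ζ - 1) * a)
    (ha : a ∈ fixRing A (stabIn (A.inertiaSubgroupIn ℚ) (ζ - 1)))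
    (ha0 : a ≠ 0) (haord : ord A p a = 0) : False := by
  set I := A.inertiaSubgroupIn ℚ
  have hp3 : 3 ≤ p := by have := h.prime.two_le; omega
  have hp3' : (3 : ℚ) ≤ p := by exact_mod_cast hp3
  have hp1 := one_sub_natCast_pos h
  obtain ⟨μ, hμ⟩ := IsAlgClosed.exists_pow_nat_eq (ζ - 1) two_pos
  obtain ⟨hlev, hKfin, -⟩ := level_sqrt h hζ hμ
  obtain ⟨h0, hord⟩ := ord_zeta_sub_one h hζ
  set K := stabIn I μ
  have hKle : K ≤ stabIn I (ζ - 1) := fun τ hτ => ⟨hτ.1, by rw [← hμ, map_pow, hτ.2]⟩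
  obtain ⟨t, ht, htdiff⟩ := exists_reps_injective h
  -- the exponents
  obtain ⟨σ, hσdef⟩ : ∃ σ : ℚ, σ = (2 * (p : ℚ) - 3) / (2 * ((p : ℚ) - 1)) := ⟨_, rfl⟩
  obtain ⟨γ, hγdef⟩ : ∃ γ : ℚ, γ = (2 * (p : ℚ) + 1) / (2 * ((p : ℚ) - 1)) := ⟨_, rfl⟩
  obtain ⟨k, hkdef⟩ : ∃ k : ℚ, k = 1 / ((p : ℚ) - 1) + σ := ⟨_, rfl⟩
  have hσpos : 0 < σ := by rw [hσdef]; exact div_pos (by linarith) (by linarith)
  have hσ1 : σ < 1 := by rw [hσdef, div_lt_one (by linarith)]; linarith
  have hγgt : (p : ℚ) / (p - 1) < γ := by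
    rw [hγdef, div_lt_div_iff₀ hp1 (by linarith)]; nlinarith
  have hγle : γ ≤ 1 + σ := by
    rw [hγdef, hσdef, div_le_iff₀ (by linarith)]
    field_simp
    nlinarith
  have hkval : k = (2 * (p : ℚ) - 1) / (2 * ((p : ℚ) - 1)) := by
    rw [hkdef, hσdef]; field_simp; ring
  have hkγ : k < (p : ℚ) / (p - 1) := by
    rw [hkval, div_lt_div_iff₀ (by linarith) hp1]; nlinarith
  have hkγ' : k < γ := hkγ.trans hγgt
  have hγ2 : γ + 1 / ((p : ℚ) - 1) ≤ (p : ℚ) * (σ + 1 / ((p : ℚ) - 1)) := by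
    rw [show σ + 1 / ((p : ℚ) - 1) = k by rw [hkdef]; ring, hkval, hγdef]
    field_simp
    nlinarith
  -- the displacements
  set s : ℕ → Ω := fun i => t i * μ ^ (2 * p - 3) with hs
  have hμord : ∀ i, s i ∈ fixRing A K ∧ s i ≠ 0 ∧ ord A p (s i) = σ := fun i => by
    refine ⟨mul_mem (fixRing_mono hlev.le (ht i).1) (pow_mem hlev.mem _),
      mul_ne_zero (ht i).2.1 (pow_ne_zero _ hlev.ne), ?_⟩
    rw [hs, h.ord_mul (ht i).2.1 (pow_ne_zero _ hlev.ne), (ht i).2.2, h.ord_pow hlev.ne,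
      hlev.ord_eq, hσdef, Nat.cast_sub (by omega : 3 ≤ 2 * p)]
    push_cast
    rw [Nat.cast_sub h.prime.one_lt.le]
    push_cast
    field_simp
    ring
  set r := α ^ p with hrdef
  have hrK : r ∈ fixRing A K :=
    ⟨pow_mem ((h.mem_iff hα0).2 hαord.ge) p, fun τ hτ => hrfix τ (hKle hτ)⟩
  have haK : a ∈ fixRing A K := ⟨ha.1, fun τ hτ => ha.2 τ (hKle hτ)⟩
  have hlamK : ζ - 1 ∈ fixRing A K := by rw [← hμ]; exact pow_mem hlev.mem 2
  have hfinNK : ((N ⊓ K).subgroupOf I).FiniteIndex := ⟨by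
    show (N ⊓ K).relIndex I ≠ 0
    exact Subgroup.relIndex_inf_ne_zero hfin.index_ne_zero hKfin.index_ne_zero⟩
  -- the twisted classes
  have key : ∀ i, ∃ x : Ω, (∀ τ ∈ N ⊓ K, τ x = x) ∧ x ≠ 0 ∧ ord A p x = 0 ∧
      (∀ τ ∈ K, τ (x ^ p) = x ^ p) ∧
      ∃ e : Ω, x ^ p * r - r = (ζ - 1) * (2 * s i * a) + e ∧
        (e = 0 ∨ k < ord A p e) := by
    intro i
    obtain ⟨hsK, hs0, hsord⟩ := hμord i
    obtain ⟨ψ, hψ, hψlam, hψfix, hψnear⟩ :=
      exists_twist_sqrt h hζ hμ hsK hσpos (Or.inr hsord.ge) hγle hγ2 hp2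
    obtain ⟨hle, φ, hφ, hφψ, hφfix⟩ := exists_fixed_extension h hN hγgt hlev hψ hlev.le hψfix
      hfinNK (fun τ hτ _ => hτ) hKfin le_rfl
    have hαA : α ∈ fixRing A (N ⊓ K) :=
      ⟨(h.mem_iff hα0).2 hαord.ge, fun τ hτ => hαN τ hτ.1 (hKle hτ.2)⟩
    have hαinv : α⁻¹ ∈ fixRing A (N ⊓ K) :=
      ⟨(h.mem_iff (inv_ne_zero hα0)).2 (by rw [h.ord_inv hα0, hαord, neg_zero]),
        fun τ hτ => by rw [map_inv₀, hαA.2 τ hτ]⟩
    have hγ0 : 0 < γ := lt_trans (by positivity) hγgt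
    obtain ⟨hφα0, hφαord⟩ := IsHomMod.ord_unit h hγ0 hφ.hom hαA hαinv hα0
    have h1 : Near A p γ (φ α ^ p - ψ r) :=
      h.near_trans (h.near_sub_comm (IsHomMod.pow h hφ.hom hαA p)) (hφψ r hrK)
    -- expand `ψ r`
    have hψr : Near A p γ (ψ r - (1 + (μ * (1 + s i)) ^ 2 * ψ a)) := by
      rw [hr]
      have e1 := hψ.hom.add 1 (one_mem _) ((ζ - 1) * a) (mul_mem hlamK haK)
      have e2 := hψ.hom.mul (ζ - 1) hlamK a haK
      have e3 := h.near_mul_right hψlam (hψ.hom.mem a haK)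
      have := h.near_add (h.near_add (h.near_add e1 hψ.hom.one) e2) e3
      rwa [show ψ (1 + (ζ - 1) * a) - ψ 1 - ψ ((ζ - 1) * a) + (ψ 1 - 1) +
          (ψ ((ζ - 1) * a) - ψ (ζ - 1) * ψ a) + (ψ (ζ - 1) - (μ * (1 + s i)) ^ 2) * ψ a =
          ψ (1 + (ζ - 1) * a) - (1 + (μ * (1 + s i)) ^ 2 * ψ a) by ring] at this
    have hr0 : r ≠ 0 := pow_ne_zero p hα0
    have hrord : ord A p r = 0 := by rw [hrdef, h.ord_pow hα0, hαord, mul_zero]
    -- `ψ r` is a unit
    have hψr1 : ψ r ≠ 0 ∧ ord A p (ψ r) = 0 := by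
      have hd : Near A p γ (ψ r - φ α ^ p) := h.near_sub_comm h1
      obtain ⟨hne, he⟩ := h.ord_add_eq (pow_ne_zero p hφα0) hd
        (by rw [h.ord_pow hφα0, hφαord, mul_zero]; exact hγ0)
      rw [add_sub_cancel] at hne he
      exact ⟨hne, he.trans (by rw [h.ord_pow hφα0, hφαord, mul_zero])⟩
    obtain ⟨y, -, hyp, hyfix⟩ := exists_root_near h hγgt (u := ψ r / φ α ^ p) (by
      rw [div_sub_one (pow_ne_zero p hφα0), div_eq_mul_inv]
      exact h.near_mul_right (h.near_sub_comm h1) ((h.mem_iff (inv_ne_zero (pow_ne_zero p hφα0))).2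
        (by rw [h.ord_inv (pow_ne_zero p hφα0), h.ord_pow hφα0, hφαord, mul_zero, neg_zero])))
    have hy0 : y ≠ 0 := fun e => div_ne_zero hψr1.1 (pow_ne_zero p hφα0)
      (by rw [← hyp, e, zero_pow h.prime.ne_zero])
    have hyord : ord A p y = 0 := by
      have := congrArg (ord A p) hyp
      rw [h.ord_pow hy0, h.ord_div hψr1.1 (pow_ne_zero p hφα0), hψr1.2, h.ord_pow hφα0, hφαord,
        mul_zero, sub_zero] at this
      exact (mul_eq_zero.1 this).resolve_left (by exact_mod_cast h.prime.ne_zero)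
    have hxp : (φ α * y / α) ^ p = ψ r / r := by
      rw [div_pow, mul_pow, hyp, mul_div_cancel₀ _ (pow_ne_zero p hφα0), hrdef]
    refine ⟨φ α * y / α, fun τ hτ => ?_, div_ne_zero (mul_ne_zero hφα0 hy0) hα0, ?_, fun τ hτ => ?_,
      ?_⟩
    · rw [map_div₀, map_mul, hφfix τ hτ α hαA, hαA.2 τ hτ, hyfix τ
        (MultRed.inertia_mem_decomposition (hlev.le hτ.2))
        (by rw [map_div₀, map_pow, hφfix τ hτ α hαA, hψfix τ hτ.2 r hrK])]
    · rw [h.ord_div (mul_ne_zero hφα0 hy0) hα0, h.ord_mul hφα0 hy0, hφαord, hyord, hαord,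
        add_zero, sub_zero]
    · rw [hxp, map_div₀, hψfix τ hτ r hrK, hrK.2 τ hτ]
    · rw [hxp, div_mul_cancel₀ _ hr0]
      refine ⟨ψ r - r - (ζ - 1) * (2 * s i * a), by ring, ?_⟩
      -- all other terms are smaller
      obtain ⟨δ, hδdef⟩ : ∃ δ : ℚ, δ = 1 / ((2 * (p - 1) : ℕ) : ℚ) := ⟨_, rfl⟩
      have hδ2 : 2 * δ = 1 / ((p : ℚ) - 1) := by
        rw [hδdef]; push_cast; rw [Nat.cast_sub h.prime.one_lt.le]; push_cast; field_simp
      have hδpos : 0 < δ := by
        have : (0 : ℚ) < 1 / ((p : ℚ) - 1) := by positivity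
        linarith
      have hσδ : δ ≤ σ := by
        have e : σ = (2 * (p : ℚ) - 3) * δ := by
          rw [hσdef, show δ = (1 / ((p : ℚ) - 1)) / 2 by linarith]; field_simp
        rw [e]; nlinarith
      have hmin : min γ (σ + δ) = σ + δ := min_eq_right (by linarith)
      obtain ⟨ρ, hρ1, hρ2⟩ : ∃ ρ : ℚ, k < ρ ∧ ρ ≤ γ ∧ ρ ≤ k + δ :=
        ⟨min γ (k + δ), lt_min hkγ' (by linarith), min_le_left _ _, min_le_right _ _⟩
      have hlam : Near A p (1 / ((p : ℚ) - 1)) (ζ - 1) := Or.inr hord.ge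
      have hsn : Near A p σ (s i) := Or.inr hsord.ge
      have hdiff : Near A p (min γ (σ + δ)) (ψ a - a) := by rw [hδdef]; exact hψnear a haK
      rw [hmin] at hdiff
      have hnear : Near A p ρ (ψ r - r - (ζ - 1) * (2 * s i * a)) := by
        have e1 : ψ r - r - (ζ - 1) * (2 * s i * a) =
            (ψ r - (1 + (μ * (1 + s i)) ^ 2 * ψ a)) + (ζ - 1) * (s i * (s i * a)) +
              (ζ - 1) * ((1 + s i) * ((1 + s i) * (ψ a - a))) := by
          rw [hr, mul_pow, hμ]; ring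
        have h1s : (1 + s i) ∈ A := add_mem (one_mem _) hsK.1
        rw [e1]
        refine h.near_add (h.near_add (hψr.mono hρ2.1) ?_) ?_
        · exact (h.near_mul hlam (h.near_mul hsn (h.near_mul_right hsn ha.1))).mono
            (by linarith [hρ2.2])
        · exact (h.near_mul hlam (h.near_mul_left h1s (h.near_mul_left h1s hdiff))).mono
            (by linarith [hρ2.2])
      rcases hnear with e | e
      · exact Or.inl e
      · exact Or.inr (hρ1.trans_le e)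
  choose x hxfix hx0 hxord hxK e hxe hesmall using key
  have hr0 : r ≠ 0 := pow_ne_zero p hα0
  have hrord : ord A p r = 0 := by rw [hrdef, h.ord_pow hα0, hαord, mul_zero]
  refine false_of_family h hlev (finiteIndex_mid (inf_le_right : N ⊓ K ≤ K) hlev.le hfinNK).1
    (x := x) (fun i => ⟨hxfix i, hxK i, hx0 i, hxord i⟩) hkγ (fun i j hij => ?_) fun n hn => ?_
  · obtain ⟨hd0, hdord⟩ := htdiff i j hij
    have hne2 : (2 : Ω) ≠ 0 := two_ne_zero
    have h2ord : ord A p (2 : Ω) = 0 := by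
      have h1 : ((2 : ℕ) : Ω) ∉ A.nonunits := fun hc => by
        rw [A.mem_nonunits_iff] at hc
        exact absurd hc (not_lt.2 (MultRed.vnat_eq_one h.prime h.liesOver fun hd => by
          have := Nat.le_of_dvd two_pos hd; omega).ge)
      have h2 : (0 : ℚ) ≤ ord A p ((2 : ℕ) : Ω) :=
        (h.mem_iff (by exact_mod_cast hne2)).1 (natCast_mem A 2)
      rw [h.nonunit_iff (by exact_mod_cast hne2), not_lt] at h1
      exact_mod_cast le_antisymm h1 h2
    set main := (ζ - 1) * (2 * (μ ^ (2 * p - 3) * (t i - t j)) * a) with hmain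
    have hmain0 : main ≠ 0 := mul_ne_zero h0
      (mul_ne_zero (mul_ne_zero hne2 (mul_ne_zero (pow_ne_zero _ hlev.ne) hd0)) ha0)
    have hmainord : ord A p main = k := by
      have hsi := (hμord i).2.2
      rw [hs, h.ord_mul (ht i).2.1 (pow_ne_zero _ hlev.ne), (ht i).2.2, zero_add] at hsi
      rw [hmain, h.ord_mul h0 (mul_ne_zero (mul_ne_zero hne2
        (mul_ne_zero (pow_ne_zero _ hlev.ne) hd0)) ha0),
        h.ord_mul (mul_ne_zero hne2 (mul_ne_zero (pow_ne_zero _ hlev.ne) hd0)) ha0,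
        h.ord_mul hne2 (mul_ne_zero (pow_ne_zero _ hlev.ne) hd0),
        h.ord_mul (pow_ne_zero _ hlev.ne) hd0, hord, h2ord, hsi, hdord, haord, hkdef]
      ring
    obtain ⟨ρ, hρ, hei, hej⟩ : ∃ ρ, k < ρ ∧ Near A p ρ (e i) ∧ Near A p ρ (e j) := by
      rcases hesmall i with e0 | e0 <;> rcases hesmall j with e1 | e1
      · exact ⟨k + 1, by linarith, Or.inl e0, Or.inl e1⟩
      · exact ⟨_, e1, Or.inl e0, Or.inr le_rfl⟩
      · exact ⟨_, e0, Or.inr le_rfl, Or.inl e1⟩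
      · exact ⟨_, lt_min e0 e1, Or.inr (min_le_left _ _), Or.inr (min_le_right _ _)⟩
    obtain ⟨hne, heq⟩ := h.ord_add_eq hmain0 (h.near_sub hei hej) (hmainord ▸ hρ)
    have hxj0 : x j ^ p ≠ 0 := pow_ne_zero p (hx0 j)
    have hform : x i ^ p / x j ^ p - 1 = (main + (e i - e j)) / (x j ^ p * r) := by
      have hi := hxe i
      have hj := hxe j
      simp only [hs] at hi hj
      rw [div_sub_one hxj0, div_eq_div_iff hxj0 (mul_ne_zero hxj0 hr0), hmain]
      linear_combination (x j ^ p) * hi - (x j ^ p) * hj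
    rw [hform]
    refine ⟨div_ne_zero hne (mul_ne_zero hxj0 hr0), ?_⟩
    rw [h.ord_div hne (mul_ne_zero hxj0 hr0), heq, hmainord, h.ord_mul hxj0 hr0,
      h.ord_pow (hx0 j), hxord, hrord, mul_zero, add_zero, sub_zero]
  · rw [hkval] at hn
    push_cast at hn
    rw [Nat.cast_sub h.prime.one_lt.le, Nat.cast_one] at hn
    field_simp at hn
    have h2 : ((n * p + 1 : ℕ) : ℤ) = ((2 * p : ℕ) : ℤ) := by
      have : ((n * p + 1 : ℕ) : ℚ) = ((2 * p : ℕ) : ℚ) := by push_cast; linarith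
      exact_mod_cast this
    have h3 : n * p + 1 = 2 * p := by exact_mod_cast h2
    have : p ∣ 1 := (Nat.dvd_add_right (dvd_mul_left p n)).1 (h3 ▸ dvd_mul_left p 2)
    exact h.prime.not_dvd_one this

/-- A character of order `p` killed by a level with Fontaine's bound is unramified. -/
theorem hom_eq_zero_on_inertia (hp2 : p ≠ 2) {N : Subgroup G_ℚ} (hN : Bound A p N)
    (hfin : (N.subgroupOf (A.inertiaSubgroupIn ℚ)).FiniteIndex)
    (f : G_ℚ → ZMod p) (hf : ∀ σ τ, f (σ * τ) = f σ + f τ)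
    (M : IntermediateField ℚ Ω) [FiniteDimensional ℚ M]
    (hM : ∀ σ : G_ℚ, (∀ x ∈ M, σ x = x) → f σ = 0) (hfN : ∀ σ ∈ N, f σ = 0) :
    ∀ σ ∈ A.inertiaSubgroupIn ℚ, f σ = 0 := by
  have : Fact p.Prime := ⟨h.prime⟩
  have : NeZero p := ⟨h.prime.ne_zero⟩
  set I := A.inertiaSubgroupIn ℚ
  have hp1 := one_sub_natCast_pos h
  have hp3 : 3 ≤ p := by have := h.prime.two_le; omega
  have hcast : ((p - 1 : ℕ) : ℚ) = (p : ℚ) - 1 := by
    rw [Nat.cast_sub h.prime.one_lt.le, Nat.cast_one]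
  obtain ⟨ζ, hζ⟩ := HasEnoughRootsOfUnity.exists_primitiveRoot Ω p
  obtain ⟨α₀, hα₀, hα₀τ⟩ := exists_resolvent f hf M hM hζ
  obtain ⟨hlev, -, -⟩ := level_zeta h hζ
  obtain ⟨h0, hord⟩ := ord_zeta_sub_one h hζ
  set Kz := stabIn I (ζ - 1)
  have hKζ : ∀ τ ∈ Kz, τ ζ = ζ := fun τ hτ => by
    have := hτ.2; rwa [map_sub, map_one, sub_left_inj] at this
  -- it suffices that some element with the same `p`-th power is fixed by the level of `ζ`
  have close : ∀ α : Ω, α ≠ 0 → (∀ τ ∈ Kz, τ α = ζ ^ (f τ).val * α) →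
      ∀ y : Ω, y ^ p = α ^ p → (∀ τ ∈ Kz, τ y = y) → ∀ σ ∈ I, f σ = 0 := by
    intro α hα hατ y hy hyfix σ hσ
    have hαfix : ∀ τ ∈ Kz, τ α = α := fun τ hτ => by
      have hy0 : y ≠ 0 := fun e => pow_ne_zero p hα (by rw [← hy, e, zero_pow h.prime.ne_zero])
      obtain ⟨i, -, hi⟩ := hζ.eq_pow_of_pow_eq_one (ξ := α / y)
        (by rw [div_pow, hy, div_self (pow_ne_zero p hα)])
      rw [eq_div_iff hy0] at hi
      rw [← hi, map_mul, map_pow, hKζ τ hτ, hyfix τ hτ]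
    have hz : ∀ τ ∈ Kz, f τ = 0 := fun τ hτ => by
      have h1 := (hαfix τ hτ).symm.trans (hατ τ hτ)
      have h2 : ζ ^ (f τ).val = 1 := by
        rwa [eq_comm, mul_eq_right₀ hα] at h1
      have h3 := Nat.eq_zero_of_dvd_of_lt (hζ.dvd_of_pow_eq_one _ h2) (ZMod.val_lt (f τ))
      exact (ZMod.val_eq_zero _).1 h3
    have hpow : ∀ m : ℕ, f (σ ^ m) = m * f σ := by
      intro m
      induction m with
      | zero =>
        have := hf 1 1
        rw [mul_one, left_eq_add] at this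
        simpa using this
      | succ m ih => rw [pow_succ, hf, ih]; push_cast; ring
    have hmem : σ ^ (p - 1) ∈ Kz := by
      refine ⟨pow_mem hσ _, ?_⟩
      obtain ⟨i, -, hi⟩ := hζ.eq_pow_of_pow_eq_one (ξ := σ ζ) (by rw [← map_pow, hζ.pow_eq_one, map_one])
      have hiter : ∀ m : ℕ, (σ ^ m) ζ = ζ ^ i ^ m := by
        intro m
        induction m with
        | zero => simp
        | succ m ih =>
          rw [pow_succ', AlgEquiv.mul_apply, ih, map_pow, ← hi, ← pow_mul, pow_succ']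
      rw [map_sub, map_one, hiter]
      have hi0 : ¬ p ∣ i := fun hd => by
        have h1 : σ ζ = 1 := by
          obtain ⟨c, rfl⟩ := hd
          rw [← hi, pow_mul, hζ.pow_eq_one, one_pow]
        exact hζ.ne_one h.prime.one_lt (σ.injective (h1.trans (map_one σ).symm))
      have hmod : i ^ (p - 1) ≡ 1 [MOD p] := by
        rw [← Nat.totient_prime h.prime]
        exact Nat.ModEq.pow_totient (h.prime.coprime_iff_not_dvd.2 hi0).symm
      rw [← pow_mod_orderOf, ← hζ.eq_orderOf, hmod, Nat.mod_eq_of_lt h.prime.one_lt, pow_one]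
    have h1 := hz _ hmem
    rw [hpow] at h1
    refine (mul_eq_zero.1 h1).resolve_left ?_
    rw [ZMod.natCast_eq_zero_iff]
    exact fun hd => absurd (Nat.le_of_dvd (by omega) hd) (by omega)
  -- the eigen property
  have eigen : ∀ (α : Ω), α ≠ 0 → (∀ τ ∈ Kz, τ α = ζ ^ (f τ).val * α) →
      ∀ k : ℕ, ∀ g ∈ I, g ζ = ζ ^ k → ¬ p ∣ k → ∀ τ ∈ Kz, τ (g α / α ^ k) = g α / α ^ k := by
    intro α hα hατ k g hg hgζ hk τ hτ
    have hconj : g⁻¹ * τ * g ∈ Kz := by
      refine ⟨mul_mem (mul_mem (inv_mem hg) hτ.1) hg, ?_⟩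
      rw [map_sub, map_one, AlgEquiv.mul_apply, AlgEquiv.mul_apply, hgζ, map_pow, hKζ τ hτ,
        ← hgζ]
      exact congrArg (· - 1) (g.symm_apply_apply ζ)
    have hfc : f (g⁻¹ * τ * g) = f τ := by
      have h1 := hf g⁻¹ g
      have h2 : f (1 : G_ℚ) = 0 := by
        have := hf 1 1
        rwa [mul_one, left_eq_add] at this
      rw [inv_mul_cancel, h2] at h1
      rw [hf, hf]
      linear_combination -h1
    have h1 := hατ _ hconj
    rw [hfc, AlgEquiv.mul_apply, AlgEquiv.mul_apply] at h1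
    have h2 : τ (g α) = ζ ^ (k * (f τ).val) * g α := by
      have := congrArg g h1
      rw [map_mul, map_pow, hgζ, ← pow_mul] at this
      rw [← this]
      exact (g.apply_symm_apply _).symm
    rw [map_div₀, map_pow, h2, hατ τ hτ, mul_pow, ← pow_mul, mul_comm (f τ).val k,
      mul_div_mul_left _ _ (pow_ne_zero _ (hζ.ne_zero h.prime.ne_zero))]
  -- a generator
  obtain ⟨u, hu⟩ := IsCyclic.exists_generator (α := (ZMod p)ˣ)
  have huord : orderOf u = p - 1 := by
    rw [orderOf_eq_card_of_forall_mem_zpowers hu, Nat.card_eq_fintype_card, ZMod.card_units]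
  set k := (u : ZMod p).val with hk
  have hkp : ¬ p ∣ k := fun hd => u.ne_zero ((ZMod.val_eq_zero _).1
    (Nat.eq_zero_of_dvd_of_lt hd (ZMod.val_lt _)))
  obtain ⟨g, hg, hgζ⟩ := exists_inertia_pow h hζ hkp
  have hgd := MultRed.inertia_mem_decomposition hg
  have hk1 : (k : ℤ) - 1 ≠ 0 ∧ ¬ (p : ℤ) ∣ (k : ℤ) - 1 := by
    have hne : ¬ (p : ℤ) ∣ (k : ℤ) - 1 := fun hd => by
      have h1 : (((k : ℤ) - 1 : ℤ) : ZMod p) = 0 := (ZMod.intCast_zmod_eq_zero_iff_dvd _ p).2 hd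
      push_cast at h1
      rw [hk, ZMod.natCast_zmod_val, sub_eq_zero] at h1
      have : orderOf u = 1 := orderOf_eq_one_iff.2 (Units.ext h1)
      omega
    exact ⟨fun e => hne (e ▸ dvd_zero _), hne⟩
  -- make `α` a unit
  obtain ⟨α₁, hα₁, hα₁τ, hα₁ord⟩ : ∃ α₁ : Ω, α₁ ≠ 0 ∧ (∀ τ ∈ Kz, τ α₁ = ζ ^ (f τ).val * α₁) ∧
      ord A p α₁ = 0 := by
    have hτ0 : ∀ τ ∈ Kz, τ α₀ = ζ ^ (f τ).val * α₀ := fun τ hτ => hα₀τ τ (hKζ τ hτ)
    obtain ⟨n, hn⟩ := exists_ord_int h hζ (x := α₀ ^ p) fun τ hτ => by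
      rw [map_pow, hτ0 τ hτ, mul_pow, ← pow_mul, mul_comm (f τ).val p, pow_mul, hζ.pow_eq_one, one_pow, one_mul]
    obtain ⟨m, hm⟩ := exists_ord_int h hζ (eigen α₀ hα₀ hτ0 k g hg hgζ hkp)
    rw [h.ord_div ((map_ne_zero g).2 hα₀) (pow_ne_zero _ hα₀), h.ord_apply hgd, h.ord_pow hα₀] at hm
    rw [h.ord_pow hα₀] at hn
    have hdvd : (p : ℤ) ∣ n := by
      have e : ((n * (1 - k) : ℤ) : ℚ) = ((p * m : ℤ) : ℚ) := by
        have hp0 : ((p - 1 : ℕ) : ℚ) ≠ 0 := by rw [hcast]; linarith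
        field_simp at hn hm
        push_cast
        linear_combination (-(p : ℚ)) * hm.symm + (1 - (k : ℚ)) * hn.symm
      have e' : n * (1 - (k : ℤ)) = p * m := by exact_mod_cast e
      have hprime : Prime (p : ℤ) := Nat.prime_iff_prime_int.mp h.prime
      rcases hprime.dvd_or_dvd (Dvd.intro m e'.symm) with hd | hd
      · exact hd
      · exact absurd (dvd_neg.1 (by rwa [neg_sub])) hk1.2
    obtain ⟨q, rfl⟩ := hdvd
    have hlam : ∀ τ ∈ Kz, τ ((ζ - 1) ^ q) = (ζ - 1) ^ q := fun τ hτ => by rw [map_zpow₀, hτ.2]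
    refine ⟨α₀ / (ζ - 1) ^ q, div_ne_zero hα₀ (zpow_ne_zero _ h0), fun τ hτ => ?_, ?_⟩
    · rw [map_div₀, hlam τ hτ, hτ0 τ hτ, mul_div_assoc]
    · have hzp : ∀ q : ℤ, ord A p ((ζ - 1) ^ q) = q * ord A p (ζ - 1) := by
        intro q
        rcases Int.eq_nat_or_neg q with ⟨m, rfl | rfl⟩
        · rw [zpow_natCast, h.ord_pow h0]; simp
        · rw [zpow_neg, zpow_natCast, h.ord_inv (pow_ne_zero m h0), h.ord_pow h0]; simp
      rw [h.ord_div hα₀ (zpow_ne_zero _ h0), hzp, hord, sub_eq_zero]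
      push_cast at hn
      rw [hcast] at hn
      have hp0 : (p : ℚ) ≠ 0 := by exact_mod_cast h.prime.ne_zero
      field_simp at hn ⊢
      linear_combination hn
  -- normalise the residue
  have hres := EllLocal.isAlgClosed_residueField A
  have hA1 : α₁ ∈ A := (h.mem_iff hα₁).2 hα₁ord.ge
  obtain ⟨z₀, hz₀⟩ := IsAlgClosed.exists_pow_nat_eq
    (IsLocalRing.residue A (⟨α₁, hA1⟩ ^ p)) h.prime.pos
  obtain ⟨z, rfl⟩ := IsLocalRing.residue_surjective z₀
  obtain ⟨t, ht, htz⟩ := exists_rep h z.2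
  have hαp : IsLocalRing.residue A (⟨t, ht.1⟩ ^ p) =
      IsLocalRing.residue A (⟨α₁, hA1⟩ ^ p) := by
    rw [← hz₀, ← map_pow]
    have e : IsLocalRing.residue A (⟨t, ht.1⟩ : A) = IsLocalRing.residue A z := by
      rw [eq_comm, ← sub_eq_zero, ← map_sub, IsLocalRing.residue_eq_zero_iff]
      exact A.coe_mem_nonunits_iff.1 htz
    rw [map_pow, map_pow, e]
  have htu : A.valuation t = 1 := by
    refine (MultRed.residue_ne_zero_iff (⟨t, ht.1⟩ : A)).1 fun e => ?_
    rw [map_pow, e, zero_pow h.prime.ne_zero, eq_comm, map_pow] at hαp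
    have h1 := (MultRed.residue_ne_zero_iff (⟨α₁, hA1⟩ : A)).2 (by
      have := (h.valuation_eq_iff hα₁ one_ne_zero).2 (by rw [hα₁ord, h.ord_one])
      rwa [map_one] at this)
    exact h1 ((pow_eq_zero_iff h.prime.ne_zero).1 hαp)
  have ht0 : t ≠ 0 := fun e => by simp [e] at htu
  have htord : ord A p t = 0 := by
    have := (h.valuation_eq_iff ht0 one_ne_zero).1 (by rw [htu, map_one])
    rwa [h.ord_one] at this
  set α := α₁ / t with hαdef
  have hα : α ≠ 0 := div_ne_zero hα₁ ht0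
  have hαord : ord A p α = 0 := by rw [hαdef, h.ord_div hα₁ ht0, hα₁ord, htord, sub_zero]
  have hατ : ∀ τ ∈ Kz, τ α = ζ ^ (f τ).val * α := fun τ hτ => by
    rw [hαdef, map_div₀, hα₁τ τ hτ, ht.2 τ (hlev.le hτ), mul_div_assoc]
  have hrfix : ∀ τ ∈ Kz, τ (α ^ p) = α ^ p := fun τ hτ => by
    rw [map_pow, hατ τ hτ, mul_pow, ← pow_mul, mul_comm (f τ).val p, pow_mul, hζ.pow_eq_one, one_pow, one_mul]
  have htinv : t⁻¹ ∈ A := (h.mem_iff (inv_ne_zero ht0)).2 (by rw [h.ord_inv ht0, htord, neg_zero])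
  have hnonunit : α ^ p - 1 ∈ A.nonunits := by
    have h1 : ((⟨α₁, hA1⟩ : A) ^ p - (⟨t, ht.1⟩ : A) ^ p) * (⟨t⁻¹, htinv⟩ : A) ^ p ∈
        IsLocalRing.maximalIdeal A :=
      Ideal.mul_mem_right _ _ (Ideal.Quotient.eq.1 hαp.symm)
    have := A.coe_mem_nonunits_iff.2 h1
    rw [MulMemClass.coe_mul, AddSubgroupClass.coe_sub, SubmonoidClass.coe_pow,
      SubmonoidClass.coe_pow, SubmonoidClass.coe_pow] at this
    rwa [sub_mul, ← mul_pow, ← mul_pow, mul_inv_cancel₀ ht0, one_pow, ← div_eq_mul_inv] at this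
  clear_value α
  rcases eq_or_ne (α ^ p - 1) 0 with e1 | e1
  · exact close α hα hατ 1 (by rw [one_pow, eq_comm, ← sub_eq_zero, e1]) fun τ _ => map_one τ
  -- the level `j`
  obtain ⟨j, hj⟩ := hlev.values (α ^ p - 1)
    ⟨sub_mem (pow_mem ((h.mem_iff hα).2 hαord.ge) p) (one_mem _),
      fun τ hτ => by rw [map_sub, map_one, hrfix τ hτ]⟩ e1
  have hj0 : 0 < j := Nat.pos_of_ne_zero fun e => by
    have := (h.nonunit_iff e1).1 hnonunit
    simp [hj, e] at this
  rw [hcast] at hj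
  have hlam0 : ∀ m : ℕ, (ζ - 1) ^ m ≠ 0 := fun m => pow_ne_zero m h0
  set a := (α ^ p - 1) / (ζ - 1) ^ j with hadef
  have ha0 : a ≠ 0 := div_ne_zero e1 (hlam0 j)
  have haord : ord A p a = 0 := by
    rw [hadef, h.ord_div e1 (hlam0 j), h.ord_pow h0, hj, hord]; ring
  have haK : a ∈ fixRing A Kz := ⟨(h.mem_iff ha0).2 haord.ge, fun τ hτ => by
    rw [hadef, map_div₀, map_sub, map_one, hrfix τ hτ, map_pow, hτ.2]⟩
  have hd : α ^ p - 1 = (ζ - 1) ^ j * a := by rw [hadef, mul_div_cancel₀ _ (hlam0 j)]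
  have hlamA : ζ - 1 ∈ A := hlev.mem.1
  have hlamn : Near A p (1 / ((p : ℚ) - 1)) (ζ - 1) := Or.inr hord.ge
  clear_value a
  rcases lt_trichotomy j p with hjp | hjp | hjp
  · rcases eq_or_ne j 1 with rfl | hj1
    · exfalso
      refine false_of_leading_one h hN hfin hp2 hζ (fun τ hτN hτ => ?_) hα hαord hrfix
        (a := a) (by rw [pow_one] at hd; linear_combination hd) haK ha0 haord
      rw [hατ τ hτ, hfN τ hτN, ZMod.val_zero, pow_zero, one_mul]
    · -- no eigen class at this level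
      exfalso
      set w := g α / α ^ k with hwdef
      have hgα : g α ≠ 0 := (map_ne_zero g).2 hα
      have hw0 : w ≠ 0 := div_ne_zero hgα (pow_ne_zero k hα)
      have hwK : ∀ τ ∈ Kz, τ w = w := eigen α hα hατ k g hg hgζ hkp
      have hword : ord A p w = 0 := by
        rw [hwdef, h.ord_div hgα (pow_ne_zero k hα), h.ord_apply hgd, h.ord_pow hα, hαord]; ring
      have hwp : g (α ^ p) = (α ^ p) ^ k * w ^ p := by
        rw [hwdef, div_pow, ← pow_mul, ← pow_mul, mul_comm p k, mul_div_cancel₀ _ (pow_ne_zero _ hα),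
          map_pow]
      obtain ⟨s₁, hs₁, he₁⟩ := exists_one_add_pow (x := (ζ - 1) ^ j * a)
        (mul_mem (pow_mem hlamA j) haK.1) k
      obtain ⟨s₂, hs₂, he₂⟩ := exists_one_add_pow (x := ζ - 1) hlamA k
      rw [add_sub_cancel] at he₂
      have hglam : g (ζ - 1) = (ζ - 1) * (k + (ζ - 1) * s₂) := by
        rw [map_sub, map_one, hgζ, he₂]; ring
      have hr1 : α ^ p = 1 + (ζ - 1) ^ j * a := by linear_combination hd
      have hga : Near A p (1 / ((p : ℚ) - 1)) (g a - a) := by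
        rw [← hcast]
        refine near_of_nonunit h hζ (fun τ hτ => ?_) ?_
        · rw [map_sub, haK.2 τ hτ]
          have hconj : g⁻¹ * τ * g ∈ Kz := by
            refine ⟨mul_mem (mul_mem (inv_mem hg) hτ.1) hg, ?_⟩
            rw [map_sub, map_one, AlgEquiv.mul_apply, AlgEquiv.mul_apply, hgζ, map_pow, hKζ τ hτ,
              ← hgζ]
            exact congrArg (· - 1) (g.symm_apply_apply ζ)
          have := congrArg g (haK.2 _ hconj)
          rw [AlgEquiv.mul_apply, AlgEquiv.mul_apply] at this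
          have e : g (g⁻¹ (τ (g a))) = τ (g a) := g.apply_symm_apply _
          rw [← e, this]
        · exact A.mem_nonunits_iff.2 (MultRed.inertia_residue hg a
            ((A.valuation_le_one_iff a).2 haK.1))
      -- the leading term
      obtain ⟨s₃, hs₃, hkj⟩ : ∃ s₃ ∈ A, ((k : Ω) + (ζ - 1) * s₂) ^ j = (k : Ω) ^ j + (ζ - 1) * s₃ := by
        clear hd hr1 hga haK haord ha0 hadef hj hj0 hjp hj1 e1 he₁ hs₁
        induction j with
        | zero => exact ⟨0, zero_mem _, by simp⟩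
        | succ j ih =>
          obtain ⟨s, hs, e⟩ := ih
          refine ⟨s * k + (k : Ω) ^ j * s₂ + (ζ - 1) * s * s₂, ?_, ?_⟩
          · exact add_mem (add_mem (mul_mem hs (natCast_mem A k))
              (mul_mem (pow_mem (natCast_mem A k) j) hs₂)) (mul_mem (mul_mem hlamA hs) hs₂)
          · rw [pow_succ, e]; ring
      set c : Ω := (((k : ℤ) ^ j - k : ℤ) : Ω) * a with hc
      have hkjne : ¬ (p : ℤ) ∣ (k : ℤ) ^ j - k := fun hdiv => by
        have h1 : ((((k : ℤ) ^ j - k : ℤ)) : ZMod p) = 0 :=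
          (ZMod.intCast_zmod_eq_zero_iff_dvd _ p).2 hdiv
        push_cast at h1
        rw [hk, ZMod.natCast_zmod_val, sub_eq_zero] at h1
        obtain ⟨i, rfl⟩ : ∃ i, j = i + 1 := ⟨j - 1, by omega⟩
        rw [pow_succ, mul_eq_right₀ u.ne_zero, ← Units.val_pow_eq_pow_val, ← Units.val_one,
          Units.val_inj, ← orderOf_dvd_iff_pow_eq_one, huord] at h1
        rcases Nat.eq_zero_or_pos i with h2 | h2
        · omega
        · have := Nat.le_of_dvd h2 h1; omega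
      have hint : ((((k : ℤ) ^ j - k : ℤ)) : Ω) ≠ 0 ∧
          ord A p ((((k : ℤ) ^ j - k : ℤ)) : Ω) = 0 := by
        have hne : ((((k : ℤ) ^ j - k : ℤ)) : Ω) ≠ 0 :=
          Int.cast_ne_zero.2 fun e => hkjne (e ▸ dvd_zero _)
        refine ⟨hne, ?_⟩
        have := (h.valuation_eq_iff hne one_ne_zero).1
          (by rw [MultRed.vint_eq_one h.prime h.liesOver hkjne, map_one])
        rwa [h.ord_one] at this
      have hc0 : c ≠ 0 := mul_ne_zero hint.1 ha0
      have hcord : ord A p c = 0 := by rw [hc, h.ord_mul hint.1 ha0, hint.2, haord, add_zero]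
      have hrest : Near A p (1 / ((p : ℚ) - 1)) ((k : Ω) ^ j * (g a - a) + (ζ - 1) * (s₃ * g a) -
          (ζ - 1) ^ j * (a * a * s₁)) := by
        have hgaA : g a ∈ A := by
          rw [h.mem_iff ((map_ne_zero g).2 ha0), h.ord_apply hgd, haord]
        refine h.near_sub (h.near_add (h.near_mul_left (pow_mem (natCast_mem A k) j) hga)
          (h.near_mul_right hlamn (mul_mem hs₃ hgaA))) ?_
        refine h.near_mul_right ?_ (mul_mem (mul_mem haK.1 haK.1) hs₁)
        obtain ⟨i, rfl⟩ : ∃ i, j = i + 1 := ⟨j - 1, by omega⟩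
        rw [pow_succ]
        exact h.near_mul_left (pow_mem hlamA i) hlamn
      obtain ⟨hb0, hb⟩ := h.ord_add_eq hc0 hrest (by rw [hcord]; positivity)
      have hdiff : g (α ^ p) - (α ^ p) ^ k = (ζ - 1) ^ j * (c + ((k : Ω) ^ j * (g a - a) +
          (ζ - 1) * (s₃ * g a) - (ζ - 1) ^ j * (a * a * s₁))) := by
        rw [hr1, he₁, map_add, map_one, map_mul, map_pow, hglam, mul_pow, hkj, hc]
        push_cast
        ring
      have hrk0 : (α ^ p) ^ k ≠ 0 := pow_ne_zero k (pow_ne_zero p hα)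
      have hwp1 : w ^ p - 1 = (g (α ^ p) - (α ^ p) ^ k) / (α ^ p) ^ k := by
        rw [hwp, eq_div_iff hrk0]; ring
      have hne : w ^ p - 1 ≠ 0 := by
        rw [hwp1, hdiff]; exact div_ne_zero (mul_ne_zero (hlam0 j) hb0) hrk0
      have hwpord : ord A p (w ^ p - 1) = (j : ℚ) / ((p : ℚ) - 1) := by
        rw [hwp1, hdiff, h.ord_div (mul_ne_zero (hlam0 j) hb0) hrk0, h.ord_mul (hlam0 j) hb0, hb,
          hcord, h.ord_pow h0, hord, h.ord_pow (pow_ne_zero p hα), h.ord_pow hα, hαord]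
        ring
      obtain ⟨hw10, hw1⟩ := ord_sub_one_of_pow h ((h.mem_iff hw0).2 hword.ge) hne hwpord
        (div_lt_div_of_pos_right (by exact_mod_cast hjp) hp1)
      obtain ⟨n, hn⟩ := exists_ord_int h hζ (x := w - 1) fun τ hτ => by
        rw [map_sub, map_one, hwK τ hτ]
      rw [hw1, hcast] at hn
      have hp0 : (p : ℚ) ≠ 0 := by exact_mod_cast h.prime.ne_zero
      field_simp at hn
      have hn' : (j : ℤ) = p * n := by
        have : (((j : ℤ)) : ℚ) = (((p : ℤ) * n : ℤ) : ℚ) := by push_cast; linarith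
        exact_mod_cast this
      have hdvd : p ∣ j := Int.natCast_dvd_natCast.1 ⟨n, hn'⟩
      have := Nat.le_of_dvd hj0 hdvd
      omega
  · -- an Artin–Schreier step
    have hc : Near A p 0 ((p : Ω) / (ζ - 1) ^ (p - 1)) := Or.inr (by
      rw [h.ord_div h.natCast_ne_zero (hlam0 _), h.ord_p, h.ord_pow h0, hord, hcast]
      field_simp
      norm_num)
    have hcA : (p : Ω) / (ζ - 1) ^ (p - 1) ∈ A := h.mem_of_near hc le_rfl
    set c : A := ⟨_, hcA⟩
    obtain ⟨z₁, hz₁⟩ := IsAlgClosed.exists_root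
      (Polynomial.X ^ p + (Polynomial.C (IsLocalRing.residue A c) * Polynomial.X -
        Polynomial.C (IsLocalRing.residue A (⟨a, haK.1⟩ : A)))) (by
      rw [Polynomial.degree_add_eq_left_of_degree_lt, Polynomial.degree_X_pow]
      · exact_mod_cast h.prime.ne_zero
      · rw [Polynomial.degree_X_pow]
        refine lt_of_le_of_lt ((Polynomial.degree_sub_le _ _).trans (max_le
          (Polynomial.degree_C_mul_X_le _) (Polynomial.degree_C_le.trans zero_le_one))) ?_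
        exact_mod_cast h.prime.one_lt)
    obtain ⟨z', rfl⟩ := IsLocalRing.residue_surjective z₁
    obtain ⟨b, hb, hbz⟩ := exists_rep h z'.2
    have hbK : ∀ τ ∈ Kz, τ b = b := fun τ hτ => hb.2 τ (hlev.le hτ)
    have hroot : b ^ p + (p : Ω) / (ζ - 1) ^ (p - 1) * b - a ∈ A.nonunits := by
      have e : IsLocalRing.residue A ((⟨b, hb.1⟩ : A) ^ p + c * ⟨b, hb.1⟩ - ⟨a, haK.1⟩) = 0 := by
        have eb : IsLocalRing.residue A (⟨b, hb.1⟩ : A) = IsLocalRing.residue A z' := by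
          rw [eq_comm, ← sub_eq_zero, ← map_sub, IsLocalRing.residue_eq_zero_iff]
          exact A.coe_mem_nonunits_iff.1 hbz
        have h1 := hz₁.eq_zero
        simp only [Polynomial.eval_add, Polynomial.eval_sub, Polynomial.eval_pow, Polynomial.eval_X,
          Polynomial.eval_mul, Polynomial.eval_C] at h1
        rw [map_sub, map_add, map_pow, map_mul, eb, ← h1]
        exact add_sub_assoc _ _ _
      exact A.coe_mem_nonunits_iff.2 ((IsLocalRing.residue_eq_zero_iff _).1 e)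
    have hr1 : α ^ p = 1 + (ζ - 1) ^ p * a := by rw [hjp] at hd; linear_combination hd
    obtain ⟨r', hr', hexp⟩ := exists_pow_sub_one h ((ζ - 1) * b) (mul_mem hlamA hb.1)
    set y₁ := 1 + (ζ - 1) * b
    obtain ⟨hy0, hy1⟩ := h.ord_add_eq one_ne_zero (h.near_mul_right hlamn hb.1)
      (by rw [h.ord_one]; positivity)
    rw [h.ord_one] at hy1
    -- `r' ≡ 1`
    have hr'1 : Near A p (1 / ((p : ℚ) - 1)) ((ζ - 1) * b * (r' - 1)) ∧
        ((ζ - 1) * b = 0 ∨ Near A p (1 / ((p : ℚ) - 1)) (r' - 1)) := by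
      refine ⟨h.near_mul_right (h.near_mul_right hlamn hb.1) (sub_mem hr' (one_mem _)), ?_⟩
      rcases eq_or_ne ((ζ - 1) * b) 0 with e | e
      · exact Or.inl e
      right
      -- expand with integer coefficients
      obtain ⟨s, hs, hexp'⟩ : ∃ s ∈ A, (1 + (ζ - 1) * b) ^ p - 1 - ((ζ - 1) * b) ^ p =
          (p : Ω) * ((ζ - 1) * b) * (1 + (ζ - 1) * b * s) := by
        set x := (ζ - 1) * b
        have hxA : x ∈ A := mul_mem hlamA hb.1
        refine ⟨∑ i ∈ Finset.Ico 2 p, ((p.choose i / p : ℕ) : Ω) * x ^ (i - 2),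
          sum_mem fun i _ => mul_mem (natCast_mem A _) (pow_mem hxA _), ?_⟩
        rw [add_comm 1 x, add_pow, Finset.range_eq_Ico,
          Finset.sum_eq_sum_Ico_succ_bot (by omega : 0 < p + 1),
          Finset.sum_eq_sum_Ico_succ_bot (by omega : 1 < p + 1), Finset.sum_Ico_succ_top (by omega)]
        simp only [pow_zero, one_pow, mul_one, Nat.choose_zero_right, Nat.cast_one, pow_one,
          Nat.choose_one_right, Nat.choose_self, mul_add, Finset.mul_sum]
        have hterm : ∀ i ∈ Finset.Ico 2 p, x ^ i * (p.choose i : Ω) =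
            (p : Ω) * x * (x * (((p.choose i / p : ℕ) : Ω) * x ^ (i - 2))) := fun i hi => by
          rw [Finset.mem_Ico] at hi
          have hdvd := h.prime.dvd_choose_self (by omega : i ≠ 0) hi.2
          have e1 : x ^ i = x ^ (i - 2) * x ^ 2 := by rw [← pow_add, Nat.sub_add_cancel hi.1]
          rw [show (p.choose i : Ω) = ((p.choose i / p : ℕ) : Ω) * (p : Ω) by
            rw [← Nat.cast_mul, Nat.div_mul_cancel hdvd], e1]
          ring
        rw [Finset.sum_congr rfl hterm]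
        ring
      have e2 : r' - 1 = (ζ - 1) * b * s := by
        have := hexp'
        rw [hexp] at this
        have e3 : (p : Ω) * ((ζ - 1) * b) * r' = (p : Ω) * ((ζ - 1) * b) * (1 + (ζ - 1) * b * s) := by
          linear_combination this
        rw [mul_left_cancel₀ (mul_ne_zero h.natCast_ne_zero e) e3]; ring
      rw [e2]
      exact h.near_mul_right (h.near_mul_right hlamn hb.1) hs
    have hlow : Near A p ((p : ℚ) / ((p : ℚ) - 1) + 1 / ((p : ℚ) - 1)) (α ^ p - y₁ ^ p) := by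
      have e : α ^ p - y₁ ^ p = (ζ - 1) ^ p * (a - b ^ p - (p : Ω) / (ζ - 1) ^ (p - 1) * b) -
          (p : Ω) * ((ζ - 1) * b * (r' - 1)) := by
        have hpow : (ζ - 1) ^ p = (ζ - 1) ^ (p - 1) * (ζ - 1) := by
          rw [← pow_succ, Nat.sub_add_cancel h.prime.one_lt.le]
        have hdiv : (ζ - 1) ^ p * ((p : Ω) / (ζ - 1) ^ (p - 1) * b) = (p : Ω) * ((ζ - 1) * b) := by
          rw [hpow]; field_simp [hlam0 (p - 1)]
        rw [mul_pow] at hexp
        rw [hr1]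
        linear_combination -hexp + hdiv
      rw [e]
      refine h.near_sub ?_ ?_
      · have hn : Near A p (1 / ((p : ℚ) - 1)) (a - b ^ p - (p : Ω) / (ζ - 1) ^ (p - 1) * b) := by
          rw [← hcast]
          refine near_of_nonunit h hζ (fun τ hτ => ?_) ?_
          · rw [map_sub, map_sub, map_pow, map_mul, map_div₀, map_natCast, map_pow, hτ.2,
              haK.2 τ hτ, hbK τ hτ]
          · rw [A.mem_nonunits_iff] at hroot ⊢
            rwa [show a - b ^ p - (p : Ω) / (ζ - 1) ^ (p - 1) * b =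
              -(b ^ p + (p : Ω) / (ζ - 1) ^ (p - 1) * b - a) by ring, Valuation.map_neg]
        have := h.near_mul (near_pow_of_near h hlamn p) hn
        rwa [mul_one_div] at this
      · rcases hr'1.2 with e0 | hr1'
        · exact Or.inl (by rw [e0, zero_mul, mul_zero])
        · have := h.near_mul (Or.inr h.ord_p.ge : Near A p 1 (p : Ω))
            (h.near_mul (h.near_mul_right hlamn hb.1) hr1')
          refine this.mono (le_of_eq ?_)
          field_simp
          ring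
    obtain ⟨y, -, hyp, hyfix⟩ := exists_root_near h (u := α ^ p / y₁ ^ p)
      (c := (p : ℚ) / ((p : ℚ) - 1) + 1 / ((p : ℚ) - 1))
      (lt_add_of_pos_right _ (by positivity)) (by
        rw [div_sub_one (pow_ne_zero p hy0), div_eq_mul_inv]
        exact h.near_mul_right hlow ((h.mem_iff (inv_ne_zero (pow_ne_zero p hy0))).2 (by
          rw [h.ord_inv (pow_ne_zero p hy0), h.ord_pow hy0, hy1, mul_zero, neg_zero])))
    refine close α hα hατ (y * y₁)
      (by rw [mul_pow, hyp, div_mul_cancel₀ _ (pow_ne_zero p hy0)]) fun τ hτ => ?_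
    have hy₁fix : τ y₁ = y₁ := by rw [map_add, map_one, map_mul, hτ.2, hbK τ hτ]
    rw [map_mul, hy₁fix, hyfix τ (MultRed.inertia_mem_decomposition (hlev.le hτ))
      (by rw [map_div₀, hrfix τ hτ, map_pow, hy₁fix])]
  · -- unramified
    obtain ⟨y, -, hyp, hyfix⟩ := exists_root_near h (u := α ^ p)
      (c := (j : ℚ) / ((p : ℚ) - 1)) (div_lt_div_of_pos_right (by exact_mod_cast hjp) hp1)
      (Or.inr hj.ge)
    exact close α hα hατ y hyp fun τ hτ =>
      hyfix τ (MultRed.inertia_mem_decomposition (hlev.le hτ)) (hrfix τ hτ)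

end Fermat.Agent.Mazur.Twist

end
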