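import Fermat.Agent.FlatJ0.FixRing
import Fermat.Agent.Frobenius.Exists
import Fermat.Agent.EllLocal.IntCurve
import Fermat.Agent.BigImage.RootsOfUnity

/-!
# Elementary facts on a place of `ℚ̄` over `p`

Representatives fixed by inertia for the residues, values of fixed elements of finite levels,
values of `p`-th powers near one and of roots of unity, and `p`-th roots of elements very near one.
-/

set_option autoImplicit false

open scoped Classical

noncomputable section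

namespace Fermat.Agent.Mazur.Twist

open Fermat.Agent Fermat.Agent.FlatJ0

local notation "Ω" => AlgebraicClosure ℚ
local notation "G_ℚ" => (AlgebraicClosure ℚ) ≃ₐ[ℚ] (AlgebraicClosure ℚ)

variable {A : ValuationSubring Ω} {p : ℕ} (h : IsOver A p)

include h

/-- A unit of `A` is congruent to a root of unity fixed by inertia. -/
lemma exists_rep_unit {x : A} (hx : IsLocalRing.residue A x ≠ 0) :
    ∃ t : A, (t : Ω) ∈ fixRing A (A.inertiaSubgroupIn ℚ) ∧
      IsLocalRing.residue A t = IsLocalRing.residue A x := by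
  have : CharP (IsLocalRing.ResidueField A) p :=
    Frobenius.residueField_charP h.prime h.liesOver
  have : Fact p.Prime := ⟨h.prime⟩
  let := ZMod.algebra (IsLocalRing.ResidueField A) p
  set y := IsLocalRing.residue A x with hy
  have : Algebra.IsAlgebraic ℚ Ω := AlgebraicClosure.isAlgebraic ℚ
  have hint : IsIntegral (ZMod p) y := by
    obtain ⟨f, hf, hf0⟩ := Frobenius.residueField_isIntegral h.prime h.liesOver y
    refine ⟨f.map (Int.castRingHom (ZMod p)), hf.map _, ?_⟩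
    rw [Polynomial.eval₂_map, ← hf0]
    exact Polynomial.eval₂_congr (Subsingleton.elim _ _) rfl rfl
  have := IntermediateField.adjoin.finiteDimensional hint
  have : Finite (IntermediateField.adjoin (ZMod p) ({y} : Set (IsLocalRing.ResidueField A))) :=
    Module.finite_of_finite (ZMod p)
  have := Fintype.ofFinite (IntermediateField.adjoin (ZMod p) ({y} : Set (IsLocalRing.ResidueField A)))
  set q := Fintype.card (IntermediateField.adjoin (ZMod p) ({y} : Set (IsLocalRing.ResidueField A)))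
    with hq
  have hyq : y ^ (q - 1) = 1 := by
    have h1 := FiniteField.pow_card_sub_one_eq_one
      (⟨y, IntermediateField.mem_adjoin_simple_self _ y⟩ :
        IntermediateField.adjoin (ZMod p) ({y} : Set (IsLocalRing.ResidueField A)))
      (fun e => hx (congrArg Subtype.val e))
    exact congrArg Subtype.val h1
  have hq1 : 1 < q := Fintype.one_lt_card
  have hpq : ¬ p ∣ q - 1 := by
    obtain ⟨n, -, hn⟩ := FiniteField.card
      (IntermediateField.adjoin (ZMod p) ({y} : Set (IsLocalRing.ResidueField A))) p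
    intro hd
    have hd' : p ∣ q := by rw [hq, hn]; exact dvd_pow_self p n.pos.ne'
    exact h.prime.not_dvd_one (by
      have := Nat.dvd_sub hd' hd
      rwa [show q - (q - 1) = 1 by omega] at this)
  set n := q - 1 with hn
  have : NeZero n := ⟨by omega⟩
  obtain ⟨ζ, hζ⟩ := HasEnoughRootsOfUnity.exists_primitiveRoot Ω n
  have hζA : ζ ∈ A := by
    rw [← A.valuation_le_one_iff]
    exact le_of_eq ((pow_eq_one_iff_of_nonneg zero_le (NeZero.ne n)).1
      (by rw [← map_pow, hζ.pow_eq_one, map_one]))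
  have hprod : ∏ i ∈ Finset.range n, (y - IsLocalRing.residue A (⟨ζ, hζA⟩ ^ i)) = 0 := by
    have h1 : ∏ i ∈ Finset.range n, (Polynomial.X - Polynomial.C ((⟨ζ, hζA⟩ : A) ^ i)) =
        Polynomial.X ^ n - 1 := by
      apply Polynomial.map_injective A.subtype Subtype.val_injective
      rw [Polynomial.map_prod, Polynomial.map_sub, Polynomial.map_pow, Polynomial.map_X,
        Polynomial.map_one]
      simp only [Polynomial.map_sub, Polynomial.map_X, Polynomial.map_C]
      rw [Polynomial.X_pow_sub_one_eq_prod (NeZero.pos n) hζ]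
      refine (Finset.prod_bij (fun i _ => ζ ^ i) ?_ ?_ ?_ ?_)
      · intro i _
        rw [Polynomial.mem_nthRootsFinset (NeZero.pos n), ← pow_mul, mul_comm, pow_mul,
          hζ.pow_eq_one, one_pow]
      · intro i hi j hj hij
        exact hζ.pow_inj (Finset.mem_range.1 hi) (Finset.mem_range.1 hj) hij
      · intro b hb
        rw [Polynomial.mem_nthRootsFinset (NeZero.pos n)] at hb
        obtain ⟨i, hi, rfl⟩ := hζ.eq_pow_of_pow_eq_one hb
        exact ⟨i, Finset.mem_range.2 hi, rfl⟩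
      · intro i _; rfl
    have h2 := congrArg (Polynomial.eval₂ (IsLocalRing.residue A) y) h1
    simpa [Polynomial.eval₂_finsetProd, hyq] using h2
  obtain ⟨i, -, hi⟩ := Finset.prod_eq_zero_iff.1 hprod
  refine ⟨⟨ζ, hζA⟩ ^ i, ⟨SetLike.coe_mem _, fun σ hσ => ?_⟩, (sub_eq_zero.1 hi).symm⟩
  rw [SubmonoidClass.coe_pow]
  refine BigImage.inertia_root_of_unity h.prime h.liesOver hσ hpq ?_
  rw [← pow_mul, mul_comm, pow_mul, hζ.pow_eq_one, one_pow]

/-- Every integer is congruent to an inertia-fixed one. -/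
lemma exists_rep {x : Ω} (hx : x ∈ A) :
    ∃ t ∈ fixRing A (A.inertiaSubgroupIn ℚ), x - t ∈ A.nonunits := by
  rcases eq_or_ne (IsLocalRing.residue A ⟨x, hx⟩) 0 with h0 | h0
  · refine ⟨0, zero_mem _, ?_⟩
    rw [sub_zero]
    exact A.coe_mem_nonunits_iff.2 ((IsLocalRing.residue_eq_zero_iff _).1 h0)
  · obtain ⟨t, ht, htr⟩ := exists_rep_unit h h0
    exact ⟨t, ht, A.coe_mem_nonunits_iff (a := ⟨x, hx⟩ - t).2
      ((IsLocalRing.residue_eq_zero_iff _).1 (by rw [map_sub, htr, sub_self]))⟩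

/-- Infinitely many inertia-fixed units with distinct residues. -/
lemma exists_reps_injective :
    ∃ t : ℕ → Ω, (∀ i, t i ∈ fixRing A (A.inertiaSubgroupIn ℚ) ∧ t i ≠ 0 ∧ ord A p (t i) = 0) ∧
      ∀ i j, i ≠ j → t i - t j ≠ 0 ∧ ord A p (t i - t j) = 0 := by
  have := EllLocal.isAlgClosed_residueField A
  have hinf : Infinite (IsLocalRing.ResidueField A) := inferInstance
  have : Infinite {y : IsLocalRing.ResidueField A // y ≠ 0} :=
    Set.infinite_coe_iff.2 ((Set.finite_singleton (0 : IsLocalRing.ResidueField A)).infinite_compl)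
  let f := Infinite.natEmbedding {y : IsLocalRing.ResidueField A // y ≠ 0}
  have key : ∀ i, ∃ t : A, (t : Ω) ∈ fixRing A (A.inertiaSubgroupIn ℚ) ∧
      IsLocalRing.residue A t = (f i).1 := by
    intro i
    obtain ⟨x, hx⟩ := IsLocalRing.residue_surjective (f i).1
    obtain ⟨t, ht, htx⟩ := exists_rep_unit h (x := x) (by rw [hx]; exact (f i).2)
    exact ⟨t, ht, htx.trans hx⟩
  choose t ht htf using key
  have hunit : ∀ a : A, IsLocalRing.residue A a ≠ 0 → (a : Ω) ≠ 0 ∧ ord A p (a : Ω) = 0 := by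
    intro a ha
    have hv := (MultRed.residue_ne_zero_iff a).1 ha
    have h0 : (a : Ω) ≠ 0 := fun e => by simp [e] at hv
    refine ⟨h0, ?_⟩
    have := (h.valuation_eq_iff h0 one_ne_zero).1 (by rw [hv, map_one])
    rwa [h.ord_one] at this
  refine ⟨fun i => t i, fun i => ⟨ht i, hunit _ (by rw [htf]; exact (f i).2)⟩, fun i j hij => ?_⟩
  exact hunit (t i - t j) (by
    rw [map_sub, htf, htf, sub_ne_zero]
    exact fun e => hij (f.injective (Subtype.ext e)))

/-- An element of a finite level has value dividing that of a fixed element by the index. -/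
lemma exists_norm {N K : Subgroup G_ℚ} (hK : K ≤ A.inertiaSubgroupIn ℚ)
    (hfin : (N.subgroupOf K).FiniteIndex) {x : Ω} (hx : x ∈ fixRing A N) (hx0 : x ≠ 0) :
    ∃ y ∈ fixRing A K, y ≠ 0 ∧ ord A p y = (N.subgroupOf K).index * ord A p x := by
  have : Fintype (K ⧸ N.subgroupOf K) := Fintype.ofFinite _
  let g : K ⧸ N.subgroupOf K → Ω := fun q => ((q.out : K) : G_ℚ) x
  have hg : ∀ (a : K) (q : K ⧸ N.subgroupOf K), (a : G_ℚ) (g q) = g (a • q) := by
    intro a q
    obtain ⟨⟨b, hb⟩, hb'⟩ := QuotientGroup.mk_out_eq_mul (N.subgroupOf K) (a * q.out)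
    have e : a • q = QuotientGroup.mk (a * q.out) := by
      conv_lhs => rw [← QuotientGroup.out_eq' q]
      rfl
    show (a : G_ℚ) ((q.out : G_ℚ) x) = ((a • q).out : G_ℚ) x
    rw [e, hb']
    show _ = ((a : G_ℚ) * (q.out : G_ℚ) * (b : G_ℚ)) x
    rw [AlgEquiv.mul_apply, AlgEquiv.mul_apply, hx.2 (b : G_ℚ) (Subgroup.mem_subgroupOf.1 hb)]
  have hgmem : ∀ q, g q ∈ A ∧ g q ≠ 0 ∧ ord A p (g q) = ord A p x := fun q => by
    have hd := MultRed.inertia_mem_decomposition (hK (q.out : K).2)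
    refine ⟨?_, (map_ne_zero _).2 hx0, h.ord_apply hd x⟩
    rw [h.mem_iff ((map_ne_zero _).2 hx0), h.ord_apply hd x, ← h.mem_iff hx0]
    exact hx.1
  refine ⟨∏ q, g q, ⟨prod_mem fun q _ => (hgmem q).1, fun σ hσ => ?_⟩,
    Finset.prod_ne_zero_iff.2 fun q _ => (hgmem q).2.1, ?_⟩
  · rw [map_prod]
    refine Fintype.prod_equiv (MulAction.toPerm (⟨σ, hσ⟩ : K)) _ _ fun q => ?_
    exact hg ⟨σ, hσ⟩ q
  · rw [h.ord_prod _ _ fun q _ => (hgmem q).2.1,
      Finset.sum_congr rfl fun q _ => (hgmem q).2.2, Finset.sum_const, Finset.card_univ,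
      nsmul_eq_mul, Subgroup.index, Nat.card_eq_fintype_card]

lemma one_sub_natCast_pos : (0 : ℚ) < (p : ℚ) - 1 := by
  have : (1 : ℚ) < p := by exact_mod_cast h.prime.one_lt
  linarith

/-- `ord (ζ - 1) = 1 / (p - 1)`. -/
lemma ord_zeta_sub_one {ζ : Ω} (hζ : IsPrimitiveRoot ζ p) :
    ζ - 1 ≠ 0 ∧ ord A p (ζ - 1) = 1 / ((p : ℚ) - 1) := by
  have hp1 : 1 < p := h.prime.one_lt
  have h0 : ζ - 1 ≠ 0 := sub_ne_zero.2 (hζ.ne_one hp1)
  have hmem : ∀ i, ζ ^ i ∈ A := fun i => by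
    refine pow_mem ?_ i
    rw [← A.valuation_le_one_iff]
    exact le_of_eq ((pow_eq_one_iff_of_nonneg zero_le h.prime.ne_zero).1
      (by rw [← map_pow, hζ.pow_eq_one, map_one]))
  have hdiv : ∀ (z : Ω) (i : ℕ), (∀ j, z ^ j ∈ A) → z ^ i - 1 ≠ 0 → z - 1 ≠ 0 →
      ord A p (z - 1) ≤ ord A p (z ^ i - 1) := by
    intro z i hz hi hz1
    have hs : (∑ j ∈ Finset.range i, z ^ j) ∈ A := sum_mem fun j _ => hz j
    rw [← geom_sum_mul] at hi ⊢
    have hs0 := left_ne_zero_of_mul hi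
    rw [h.ord_mul hs0 hz1]
    linarith [(h.mem_iff hs0).1 hs]
  have hsame : ∀ k, k + 1 < p → ζ ^ (k + 1) - 1 ≠ 0 ∧
      ord A p (ζ ^ (k + 1) - 1) = ord A p (ζ - 1) := by
    intro k hk
    have hne : ζ ^ (k + 1) - 1 ≠ 0 := sub_ne_zero.2 (hζ.pow_ne_one_of_pos_of_lt (by omega) hk)
    refine ⟨hne, le_antisymm ?_ (hdiv ζ (k + 1) hmem hne h0)⟩
    obtain ⟨j, hj⟩ := Nat.exists_mul_mod_eq_one_of_coprime
      ((Nat.coprime_comm.1 ((h.prime.coprime_iff_not_dvd).2 fun hd => by
        have := Nat.le_of_dvd k.succ_pos hd; omega))) hp1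
    have hζ' : (ζ ^ (k + 1)) ^ j = ζ := by
      rw [← pow_mul, ← pow_mod_orderOf, ← hζ.eq_orderOf, hj.2, pow_one]
    have := hdiv (ζ ^ (k + 1)) j (fun l => by rw [← pow_mul]; exact hmem _)
      (by rw [hζ']; exact h0) hne
    rwa [hζ'] at this
  obtain ⟨m, rfl⟩ : ∃ m, p = m + 1 := ⟨p - 1, by omega⟩
  have hprod := hζ.prod_one_sub_pow_eq_order
  have hord : ord A (m + 1) (∏ k ∈ Finset.range m, (1 - ζ ^ (k + 1))) =
      m * ord A (m + 1) (ζ - 1) := by
    rw [h.ord_prod _ _ fun k hk => by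
      rw [← neg_sub]; exact neg_ne_zero.2 (hsame k (by simpa using hk)).1]
    rw [Finset.sum_congr rfl fun k hk => by
      rw [← neg_sub, h.ord_neg, (hsame k (by simpa using hk)).2]]
    simp
  rw [hprod, ← Nat.cast_add_one, h.ord_p] at hord
  refine ⟨h0, ?_⟩
  push_cast
  rw [add_sub_cancel_right, eq_div_iff (by exact_mod_cast (show m ≠ 0 by omega))]
  linarith

/-- A `p`-th root of unity very near `1` is `1`. -/
lemma eq_one_of_near {η : Ω} (hη : η ^ p = 1) {δ : ℚ} (hδ : 1 / ((p : ℚ) - 1) < δ)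
    (hnear : Near A p δ (η - 1)) : η = 1 := by
  by_contra hne
  have hζ : IsPrimitiveRoot η p := by
    have : Fact p.Prime := ⟨h.prime⟩
    exact IsPrimitiveRoot.iff_orderOf.2 (orderOf_eq_prime hη hne)
  obtain ⟨h0, ho⟩ := ord_zeta_sub_one h hζ
  have := hnear.resolve_left h0
  linarith

/-- `(1 + w) ^ p - 1` is `w ^ p` up to `p w`. -/
lemma exists_pow_sub_one (w : Ω) (hw : w ∈ A) :
    ∃ r ∈ A, (1 + w) ^ p - 1 = w ^ p + (p : Ω) * w * r := by
  obtain ⟨r, hr⟩ := exists_add_pow_prime_eq h.prime (1 : A) ⟨w, hw⟩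
  refine ⟨r, r.2, ?_⟩
  have := congrArg Subtype.val hr
  push_cast at this
  rw [this]; ring

/-- The value of `y - 1` when `y ^ p - 1` has a value below `p / (p - 1)`. -/
lemma ord_sub_one_of_pow {y : Ω} (hy : y ∈ A) {k : ℚ} (hne : y ^ p - 1 ≠ 0)
    (hk : ord A p (y ^ p - 1) = k) (hlt : k < (p : ℚ) / ((p : ℚ) - 1)) :
    y - 1 ≠ 0 ∧ ord A p (y - 1) = k / p := by
  have hp : (0 : ℚ) < p := by exact_mod_cast h.prime.pos
  have hp1 := one_sub_natCast_pos h
  set w := y - 1 with hw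
  have hwA : w ∈ A := sub_mem hy (one_mem _)
  obtain ⟨r, hr, hrw⟩ := exists_pow_sub_one h w hwA
  rw [show 1 + w = y by rw [hw]; ring] at hrw
  have hw0 : w ≠ 0 := fun e => hne (by rw [hrw, e]; simp [h.prime.ne_zero])
  refine ⟨hw0, ?_⟩
  have hδ0 : 0 ≤ ord A p w := (h.mem_iff hw0).1 hwA
  have hsecond : Near A p (1 + ord A p w) ((p : Ω) * w * r) :=
    h.near_mul_right (Or.inr (by rw [h.ord_mul h.natCast_ne_zero hw0, h.ord_p])) hr
  rcases lt_or_ge ((p : ℚ) * ord A p w) (1 + ord A p w) with hlt' | hge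
  · obtain ⟨-, he⟩ := h.ord_add_eq (pow_ne_zero p hw0) hsecond (by rwa [h.ord_pow hw0])
    rw [← hrw, hk, h.ord_pow hw0] at he
    rw [he, mul_div_cancel_left₀ _ hp.ne']
  · exfalso
    have hδ : 1 / ((p : ℚ) - 1) ≤ ord A p w := by
      rw [div_le_iff₀ hp1]; linarith
    have hN : Near A p ((p : ℚ) / ((p : ℚ) - 1)) (y ^ p - 1) := by
      rw [hrw]
      refine h.near_add (Or.inr ?_) (hsecond.mono ?_)
      · rw [h.ord_pow hw0, show (p : ℚ) / ((p : ℚ) - 1) = p * (1 / ((p : ℚ) - 1)) by ring]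
        exact mul_le_mul_of_nonneg_left hδ hp.le
      · rw [show (p : ℚ) / ((p : ℚ) - 1) = 1 + 1 / ((p : ℚ) - 1) by field_simp; ring]
        linarith
    have := hN.resolve_left hne
    rw [hk] at this
    linarith

/-- An element very near `1` has a `p`-th root fixed by whatever inertia fixes it. -/
lemma exists_root_near {u : Ω} {c : ℚ} (hc : (p : ℚ) / ((p : ℚ) - 1) < c)
    (hu : Near A p c (u - 1)) :
    ∃ y ∈ A, y ^ p = u ∧ ∀ σ ∈ A.decompositionSubgroup ℚ, σ u = u → σ y = y := by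
  have hp : (0 : ℚ) < p := by exact_mod_cast h.prime.pos
  have hp1 := one_sub_natCast_pos h
  have hc0 : 0 < c := lt_trans (by positivity) hc
  have : NeZero p := ⟨h.prime.ne_zero⟩
  obtain ⟨y₀, hy₀⟩ := IsAlgClosed.exists_pow_nat_eq u h.prime.pos
  obtain ⟨ζ, hζ⟩ := HasEnoughRootsOfUnity.exists_primitiveRoot Ω p
  have hprod : ∏ i ∈ Finset.range p, (1 - y₀ * ζ ^ i) = 1 - u := by
    have h1 := hζ.pow_sub_pow_eq_prod_sub_mul (x := 1) (y := y₀) h.prime.pos
    rw [one_pow, hy₀] at h1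
    rw [h1]
    refine Finset.prod_bij (fun i _ => ζ ^ i) ?_ ?_ ?_ ?_
    · intro i _
      rw [Polynomial.mem_nthRootsFinset h.prime.pos, ← pow_mul, mul_comm, pow_mul, hζ.pow_eq_one,
        one_pow]
    · intro i hi j hj hij
      exact hζ.pow_inj (Finset.mem_range.1 hi) (Finset.mem_range.1 hj) hij
    · intro b hb
      rw [Polynomial.mem_nthRootsFinset h.prime.pos] at hb
      obtain ⟨i, hi, rfl⟩ := hζ.eq_pow_of_pow_eq_one hb
      exact ⟨i, Finset.mem_range.2 hi, rfl⟩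
    · intro i _; rw [mul_comm]
  obtain ⟨δ, hδ, hδ'⟩ : ∃ δ, 1 / ((p : ℚ) - 1) < δ ∧ δ ≤ c / p := by
    refine ⟨c / p, ?_, le_rfl⟩
    rw [lt_div_iff₀ hp]
    calc 1 / ((p : ℚ) - 1) * p = (p : ℚ) / ((p : ℚ) - 1) := by ring
      _ < c := hc
  obtain ⟨i, hi⟩ : ∃ i, Near A p δ (1 - y₀ * ζ ^ i) := by
    by_contra hcon
    push Not at hcon
    have hne : ∀ i, 1 - y₀ * ζ ^ i ≠ 0 := fun i e => hcon i (Or.inl e)
    have hlt : ∀ i, ord A p (1 - y₀ * ζ ^ i) < δ := fun i =>
      not_le.1 fun e => hcon i (Or.inr e)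
    have h0 : 1 - u ≠ 0 := hprod ▸ Finset.prod_ne_zero_iff.2 fun i _ => hne i
    have h1 : c ≤ ord A p (1 - u) := by
      have := (h.near_neg hu)
      rw [neg_sub] at this
      exact this.resolve_left h0
    rw [← hprod, h.ord_prod _ _ fun i _ => hne i] at h1
    have h2 : ∑ i ∈ Finset.range p, ord A p (1 - y₀ * ζ ^ i) < ∑ _i ∈ Finset.range p, δ :=
      Finset.sum_lt_sum_of_nonempty ⟨0, Finset.mem_range.2 h.prime.pos⟩ fun i _ => hlt i
    rw [Finset.sum_const, Finset.card_range, nsmul_eq_mul] at h2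
    have h3 : (p : ℚ) * δ ≤ c := by
      rw [le_div_iff₀ hp] at hδ'; linarith
    linarith
  set y := y₀ * ζ ^ i with hy
  have hδ0 : 0 < δ := lt_trans (by positivity) hδ
  have hyA : y ∈ A := by
    rw [show y = 1 - (1 - y) by ring]
    exact sub_mem (one_mem _) (h.mem_of_near hi hδ0.le)
  have hypow : y ^ p = u := by
    rw [hy, mul_pow, ← pow_mul, mul_comm i, pow_mul, hζ.pow_eq_one, one_pow, mul_one, hy₀]
  refine ⟨y, hyA, hypow, fun σ hσ hσu => ?_⟩
  have hσ1 : Near A p δ (1 - σ y) := by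
    have := (h.near_apply hσ (x := 1 - y)).2 hi
    rwa [map_sub, map_one] at this
  have hdiff : Near A p δ (σ y - y) := by
    have := h.near_sub hi hσ1
    rwa [show 1 - y - (1 - σ y) = σ y - y by ring] at this
  have hy1 : ord A p y = 0 ∧ y ≠ 0 := by
    obtain ⟨hne, he⟩ := h.ord_add_eq one_ne_zero (h.near_neg hi) (by rw [h.ord_one]; exact hδ0)
    rw [show 1 + -(1 - y) = y by ring] at hne he
    exact ⟨he.trans h.ord_one, hne⟩
  set η := σ y / y with hη
  have hη1 : η = 1 := by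
    refine eq_one_of_near h ?_ hδ ?_
    · rw [hη, div_pow, ← map_pow, hypow, hσu, div_self]
      rw [← hypow]; exact pow_ne_zero _ hy1.2
    · rw [hη, show σ y / y - 1 = (σ y - y) * y⁻¹ by rw [sub_mul, mul_inv_cancel₀ hy1.2, div_eq_mul_inv]]
      exact h.near_mul_right hdiff ((h.mem_iff (inv_ne_zero hy1.2)).2
        (by rw [h.ord_inv hy1.2, hy1.1, neg_zero]))
  rwa [hη, div_eq_one_iff_eq hy1.2] at hη1

end Fermat.Agent.Mazur.Twist

end
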