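import Fermat.Agent.Mazur.Twist.Exclude

/-!
# The cyclotomic levels at an odd prime `p`

The level of `ζ - 1` and of a square root `μ` of it, the inertia elements raising `ζ` to a given
power, and the twists of the level of `μ`.
-/

set_option autoImplicit false

open scoped Classical
open Polynomial (X C)

noncomputable section

namespace Fermat.Agent.Mazur.Twist

open Fermat.Agent Fermat.Agent.FlatJ0

local notation "Ω" => AlgebraicClosure ℚ
local notation "G_ℚ" => (AlgebraicClosure ℚ) ≃ₐ[ℚ] (AlgebraicClosure ℚ)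

variable {A : ValuationSubring Ω} {p : ℕ} (h : IsOver A p)

include h

omit h in
lemma sum_coeff_neg {Q : Polynomial ℤ} {d : ℕ} (hmon : Q.Monic) (hd : Q.natDegree = d) (z : Ω) :
    ∑ j ∈ Finset.range d, (-(Q.coeff j : Ω)) * z ^ j = z ^ d - Polynomial.aeval z Q := by
  have hc : Q.coeff d = 1 := hd ▸ hmon.coeff_natDegree
  rw [Polynomial.aeval_eq_sum_range, hd, Finset.sum_range_succ, hc, one_zsmul,
    sub_add_cancel_right, ← Finset.sum_neg_distrib]
  exact Finset.sum_congr rfl fun j _ => by rw [zsmul_eq_mul, neg_mul]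

/-- An element of value `1 / d` that is a root of a monic integral polynomial of degree `d` is a
uniformiser of its level. -/
lemma level_of_root {Q : Polynomial ℤ} {x : Ω} {d : ℕ} (hmon : Q.Monic) (hd : Q.natDegree = d)
    (hd0 : 0 < d) (hroot : Polynomial.aeval x Q = 0) (hx0 : x ≠ 0)
    (hord : ord A p x = 1 / (d : ℚ)) :
    IsLevel A p (stabIn (A.inertiaSubgroupIn ℚ) x) x d ∧
      ((stabIn (A.inertiaSubgroupIn ℚ) x).subgroupOf (A.inertiaSubgroupIn ℚ)).FiniteIndex ∧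
      ((stabIn (A.inertiaSubgroupIn ℚ) x).subgroupOf (A.inertiaSubgroupIn ℚ)).index = d := by
  have hP0 : Q.map (algebraMap ℤ Ω) ≠ 0 := (hmon.map _).ne_zero
  obtain ⟨hfin, hidx⟩ := index_stabIn (K := A.inertiaSubgroupIn ℚ) (x := x) hP0 fun σ _ => by
    rw [Polynomial.IsRoot, Polynomial.eval_map, ← Polynomial.aeval_def,
      show σ x = (σ : Ω →ₐ[ℚ] Ω).restrictScalars ℤ x from rfl, Polynomial.aeval_algHom_apply,
      hroot, map_zero]
  rw [hmon.natDegree_map, hd] at hidx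
  have := hfin
  have hd' : (0 : ℚ) < d := by exact_mod_cast hd0
  have hxK : x ∈ fixRing A (stabIn (A.inertiaSubgroupIn ℚ) x) :=
    ⟨(h.mem_iff hx0).2 (by rw [hord]; positivity), fun σ hσ => hσ.2⟩
  obtain ⟨ϖ, eK, hlev⟩ := exists_level h
    (fun σ hσ => hσ.1 : stabIn (A.inertiaSubgroupIn ℚ) x ≤ A.inertiaSubgroupIn ℚ)
  obtain ⟨d', -, he, hdle⟩ := exists_dvd h hlev (level_inertia h)
    (fun σ hσ => hσ.1 : stabIn (A.inertiaSubgroupIn ℚ) x ≤ A.inertiaSubgroupIn ℚ) hfin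
  rw [mul_one] at he
  obtain ⟨n, hn⟩ := hlev.values x hxK hx0
  rw [hord, div_eq_div_iff hd'.ne' (by exact_mod_cast hlev.pos.ne'), one_mul] at hn
  have hn' : eK = n * d := by exact_mod_cast hn
  have hle : eK ≤ d := (he.le.trans hdle).trans hidx
  have hn1 : n = 1 := by
    rcases Nat.lt_or_ge n 2 with hlt | hge
    · rcases Nat.eq_zero_or_pos n with h0 | h0
      · exact absurd (by rw [hn', h0, zero_mul]) hlev.pos.ne'
      · omega
    · have : 2 * d ≤ eK := hn' ▸ Nat.mul_le_mul_right d hge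
      omega
  rw [hn1, one_mul] at hn'
  subst hn'
  exact ⟨⟨fun σ hσ => hσ.1, hd0, hxK, hx0, hord, hlev.values⟩, hfin,
    le_antisymm hidx (he ▸ hdle)⟩

variable {ζ : Ω} (hζ : IsPrimitiveRoot ζ p)

include hζ

omit h in
lemma aeval_cyclotomic_succ (hp : p.Prime) :
    Polynomial.aeval (ζ - 1) ((Polynomial.cyclotomic p ℤ).comp (X + 1)) = 0 := by
  have : NeZero p := ⟨hp.ne_zero⟩
  rw [Polynomial.aeval_comp, map_add, Polynomial.aeval_X, map_one, sub_add_cancel,
    Polynomial.aeval_def, Polynomial.eval₂_eq_eval_map, Polynomial.map_cyclotomic]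
  exact (Polynomial.isRoot_cyclotomic_iff.2 hζ)

/-- The level of `ζ - 1`. -/
lemma level_zeta :
    IsLevel A p (stabIn (A.inertiaSubgroupIn ℚ) (ζ - 1)) (ζ - 1) (p - 1) ∧
      ((stabIn (A.inertiaSubgroupIn ℚ) (ζ - 1)).subgroupOf (A.inertiaSubgroupIn ℚ)).FiniteIndex ∧
      ((stabIn (A.inertiaSubgroupIn ℚ) (ζ - 1)).subgroupOf (A.inertiaSubgroupIn ℚ)).index =
        p - 1 := by
  obtain ⟨h0, hord⟩ := ord_zeta_sub_one h hζ
  have hdeg : ((X : Polynomial ℤ) + 1).natDegree = 1 := by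
    rw [← Polynomial.C_1]; exact Polynomial.natDegree_X_add_C 1
  refine level_of_root h ((Polynomial.cyclotomic.monic p ℤ).comp (by
    rw [← Polynomial.C_1]; exact Polynomial.monic_X_add_C 1) (by rw [hdeg]; exact one_ne_zero))
    ?_ (by have := h.prime.two_le; omega) (aeval_cyclotomic_succ hζ h.prime) h0 ?_
  · rw [Polynomial.natDegree_comp, hdeg, mul_one, Polynomial.natDegree_cyclotomic,
      Nat.totient_prime h.prime]
  · rw [hord, Nat.cast_sub h.prime.one_lt.le, Nat.cast_one]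

/-- An element fixed by the level of `ζ - 1` has value in `(1 / (p - 1)) ℤ`. -/
lemma exists_ord_int {x : Ω}
    (hfix : ∀ σ ∈ stabIn (A.inertiaSubgroupIn ℚ) (ζ - 1), σ x = x) :
    ∃ n : ℤ, ord A p x = (n : ℚ) / ((p - 1 : ℕ) : ℚ) := by
  obtain ⟨hlev, -, -⟩ := level_zeta h hζ
  rcases eq_or_ne x 0 with rfl | hx0
  · refine ⟨0, ?_⟩
    obtain ⟨z, hz⟩ := h.exists_ord_eq_int (x := (0 : Ω)) fun σ _ => map_zero σ
    rw [hz]
    rcases eq_or_ne z 0 with rfl | hz0
    · simp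
    · exfalso
      have h0 : ord A p (0 : Ω) = 0 := by
        rw [ord, dif_neg]
        rintro ⟨⟨d, w⟩, hd, he⟩
        rw [map_zero, zero_pow hd.ne'] at he
        exact (zpow_ne_zero w h.val_p_pos.ne') he.symm
      exact hz0 (by exact_mod_cast hz.symm.trans h0)
  rcases A.mem_or_inv_mem x with hm | hm
  · obtain ⟨j, hj⟩ := hlev.values x ⟨hm, hfix⟩ hx0
    exact ⟨j, by rw [hj]; simp⟩
  · obtain ⟨j, hj⟩ := hlev.values x⁻¹ ⟨hm, fun σ hσ => by rw [map_inv₀, hfix σ hσ]⟩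
      (inv_ne_zero hx0)
    rw [h.ord_inv hx0, neg_eq_iff_eq_neg] at hj
    exact ⟨-j, by rw [hj]; push_cast; ring⟩

/-- A nonunit fixed by the level of `ζ - 1` is divisible by it. -/
lemma near_of_nonunit {x : Ω} (hfix : ∀ σ ∈ stabIn (A.inertiaSubgroupIn ℚ) (ζ - 1), σ x = x)
    (hx : x ∈ A.nonunits) : Near A p (1 / ((p - 1 : ℕ) : ℚ)) x := by
  rcases eq_or_ne x 0 with e | e
  · exact Or.inl e
  obtain ⟨n, hn⟩ := exists_ord_int h hζ hfix
  have hpos := (h.nonunit_iff e).1 hx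
  refine Or.inr ?_
  rw [hn] at hpos ⊢
  have hp0 : (0 : ℚ) < ((p - 1 : ℕ) : ℚ) := by
    have := h.prime.two_le; exact_mod_cast (show 0 < p - 1 by omega)
  have hn0 : (0 : ℚ) < n := by
    rcases lt_or_ge 0 (n : ℚ) with hh | hh
    · exact hh
    · exact absurd hpos (not_lt.2 (div_nonpos_of_nonpos_of_nonneg hh hp0.le))
  exact div_le_div_of_nonneg_right (by exact_mod_cast hn0) hp0.le

/-- Inertia raises `ζ` to every power prime to `p`. -/
lemma exists_inertia_pow {k : ℕ} (hk : ¬ p ∣ k) :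
    ∃ g ∈ A.inertiaSubgroupIn ℚ, g ζ = ζ ^ k := by
  obtain ⟨-, hfin, hidx⟩ := level_zeta h hζ
  have := hfin
  have : NeZero p := ⟨h.prime.ne_zero⟩
  have hmem : ∀ g : G_ℚ, g ζ ∈ primitiveRoots p Ω := fun g =>
    (mem_primitiveRoots h.prime.pos).2 (hζ.map_of_injective g.injective)
  let F : (A.inertiaSubgroupIn ℚ) ⧸ (stabIn (A.inertiaSubgroupIn ℚ) (ζ - 1)).subgroupOf
      (A.inertiaSubgroupIn ℚ) → primitiveRoots p Ω :=
    fun q => ⟨((q.out : A.inertiaSubgroupIn ℚ) : G_ℚ) ζ, hmem _⟩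
  have hF : Function.Injective F := fun q q' hqq => by
    have e : ((q.out : A.inertiaSubgroupIn ℚ) : G_ℚ) ζ = ((q'.out : A.inertiaSubgroupIn ℚ) : G_ℚ) ζ :=
      congrArg Subtype.val hqq
    rw [← QuotientGroup.out_eq' q, ← QuotientGroup.out_eq' q', QuotientGroup.eq,
      Subgroup.mem_subgroupOf]
    refine ⟨((q.out : A.inertiaSubgroupIn ℚ)⁻¹ * (q'.out : A.inertiaSubgroupIn ℚ)).2, ?_⟩
    show ((q.out : A.inertiaSubgroupIn ℚ) : G_ℚ).symm
      (((q'.out : A.inertiaSubgroupIn ℚ) : G_ℚ) (ζ - 1)) = ζ - 1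
    rw [AlgEquiv.symm_apply_eq, map_sub, map_sub, map_one, map_one, e]
  have hcard : Nat.card (primitiveRoots p Ω) ≤ Nat.card ((A.inertiaSubgroupIn ℚ) ⧸
      (stabIn (A.inertiaSubgroupIn ℚ) (ζ - 1)).subgroupOf (A.inertiaSubgroupIn ℚ)) := by
    rw [Nat.card_eq_fintype_card, Fintype.card_coe, hζ.card_primitiveRoots,
      Nat.totient_prime h.prime]
    exact hidx.ge
  obtain ⟨q, hq⟩ := (hF.bijective_of_nat_card_le hcard).2
    ⟨ζ ^ k, (mem_primitiveRoots h.prime.pos).2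
      (hζ.pow_of_coprime k (h.prime.coprime_iff_not_dvd.2 hk).symm)⟩
  exact ⟨_, (q.out : A.inertiaSubgroupIn ℚ).2, congrArg Subtype.val hq⟩

omit h hζ in
/-- `(1 + x) ^ k = 1 + x (k + x s)`. -/
lemma exists_one_add_pow {x : Ω} (hx : x ∈ A) (k : ℕ) :
    ∃ s ∈ A, (1 + x) ^ k = 1 + x * (k + x * s) := by
  induction k with
  | zero => exact ⟨0, zero_mem _, by simp⟩
  | succ k ih =>
    obtain ⟨s, hs, e⟩ := ih
    refine ⟨s + k + x * s, add_mem (add_mem hs (natCast_mem A k)) (mul_mem hx hs), ?_⟩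
    rw [pow_succ, e]; push_cast; ring

/-- The level of a square root of `ζ - 1` (`p` odd), with its equation. -/
lemma level_sqrt {μ : Ω} (hμ : μ ^ 2 = ζ - 1) :
    IsLevel A p (stabIn (A.inertiaSubgroupIn ℚ) μ) μ (2 * (p - 1)) ∧
      ((stabIn (A.inertiaSubgroupIn ℚ) μ).subgroupOf (A.inertiaSubgroupIn ℚ)).FiniteIndex ∧
      ((Polynomial.cyclotomic p ℤ).comp (X ^ 2 + 1)).Monic ∧
      ((Polynomial.cyclotomic p ℤ).comp (X ^ 2 + 1)).natDegree = 2 * (p - 1) ∧
      Polynomial.aeval μ ((Polynomial.cyclotomic p ℤ).comp (X ^ 2 + 1)) = 0 := by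
  obtain ⟨h0, hord⟩ := ord_zeta_sub_one h hζ
  have hdeg : ((X : Polynomial ℤ) ^ 2 + 1).natDegree = 2 := by
    rw [← Polynomial.C_1]; exact Polynomial.natDegree_X_pow_add_C
  have hmon : ((Polynomial.cyclotomic p ℤ).comp (X ^ 2 + 1)).Monic :=
    (Polynomial.cyclotomic.monic p ℤ).comp (by
      rw [← Polynomial.C_1]; exact Polynomial.monic_X_pow_add_C 1 two_ne_zero)
      (by rw [hdeg]; exact two_ne_zero)
  have hd : ((Polynomial.cyclotomic p ℤ).comp (X ^ 2 + 1)).natDegree = 2 * (p - 1) := by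
    rw [Polynomial.natDegree_comp, hdeg, Polynomial.natDegree_cyclotomic,
      Nat.totient_prime h.prime, mul_comm]
  have hroot : Polynomial.aeval μ ((Polynomial.cyclotomic p ℤ).comp (X ^ 2 + 1)) = 0 := by
    have := aeval_cyclotomic_succ hζ h.prime
    rw [Polynomial.aeval_comp, map_add, Polynomial.aeval_X, map_one] at this
    rw [Polynomial.aeval_comp, map_add, map_pow, Polynomial.aeval_X, map_one, hμ]
    exact this
  have hμ0 : μ ≠ 0 := fun e => h0 (by rw [← hμ, e, zero_pow two_ne_zero])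
  have hμord : ord A p μ = 1 / ((2 * (p - 1) : ℕ) : ℚ) := by
    have := congrArg (ord A p) hμ
    rw [h.ord_pow hμ0, hord] at this
    push_cast at this ⊢
    rw [Nat.cast_sub h.prime.one_lt.le, Nat.cast_one]
    field_simp at this ⊢
    linarith
  obtain ⟨h1, h2, -⟩ := level_of_root h hmon hd (by have := h.prime.two_le; omega) hroot hμ0 hμord
  exact ⟨h1, h2, hmon, hd, hroot⟩

/-- The twist `μ ↦ μ (1 + s)` of the level of `μ`, with its displacement. -/
lemma exists_twist_sqrt {μ s : Ω} (hμ : μ ^ 2 = ζ - 1)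
    (hs : s ∈ fixRing A (stabIn (A.inertiaSubgroupIn ℚ) μ)) {γ : ℚ} {σ : ℚ} (hσ : 0 < σ)
    (hsσ : Near A p σ s) (hγ1 : γ ≤ 1 + σ) (hγ2 : γ + 1 / ((p : ℚ) - 1) ≤
      (p : ℚ) * (σ + 1 / ((p : ℚ) - 1))) (hp2 : p ≠ 2) :
    ∃ ψ : Ω → Ω, IsTwist A p (stabIn (A.inertiaSubgroupIn ℚ) μ) γ ψ ∧
      Near A p γ (ψ (ζ - 1) - (μ * (1 + s)) ^ 2) ∧
      (∀ τ ∈ stabIn (A.inertiaSubgroupIn ℚ) μ,
        ∀ a ∈ fixRing A (stabIn (A.inertiaSubgroupIn ℚ) μ), τ (ψ a) = ψ a) ∧
      ∀ a ∈ fixRing A (stabIn (A.inertiaSubgroupIn ℚ) μ), Near A p (min γ (σ + 1 / ((2 * (p - 1) : ℕ) : ℚ))) (ψ a - a) := by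
  obtain ⟨hlev, hfin, hmon, hd, hroot⟩ := level_sqrt h hζ hμ
  obtain ⟨h0, hord⟩ := ord_zeta_sub_one h hζ
  have hp1 := one_sub_natCast_pos h
  set Q := (Polynomial.cyclotomic p ℤ).comp (X ^ 2 + 1)
  set I := A.inertiaSubgroupIn ℚ
  have hg : ∀ j : ℕ, (-(Q.coeff j : Ω)) ∈ fixRing A I :=
    fun j => ⟨neg_mem (intCast_mem A _), fun τ _ => by rw [map_neg, map_intCast]⟩
  have h1s : 1 + s ∈ A := add_mem (one_mem _) hs.1
  have hϖ'A : μ * (1 + s) ∈ A := mul_mem hlev.mem.1 h1s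
  have hnear : Near A p (1 / ((2 * (p - 1) : ℕ) : ℚ)) (μ * (1 + s)) :=
    h.near_mul_right (Or.inr hlev.ord_eq.ge) h1s
  -- the value of the transformed equation
  have heval : Near A p γ (Polynomial.aeval (μ * (1 + s)) Q) := by
    have e0 : Polynomial.aeval (μ * (1 + s)) Q =
        ∑ i ∈ Finset.range p, ((μ * (1 + s)) ^ 2 + 1) ^ i := by
      have : Fact p.Prime := ⟨h.prime⟩
      rw [Polynomial.aeval_comp, map_add, map_pow, Polynomial.aeval_X, map_one,
        Polynomial.cyclotomic_prime, map_sum]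
      simp
    set z := (μ * (1 + s)) ^ 2 + 1 - ζ with hz
    have hzeq : z = (ζ - 1) * (s * (2 + s)) := by rw [hz, mul_pow, hμ]; ring
    have h2s : (2 + s) ∈ A := add_mem (by exact_mod_cast natCast_mem A 2) hs.1
    have hznear : Near A p (σ + 1 / ((p : ℚ) - 1)) z := by
      rw [hzeq]
      have := h.near_mul (Or.inr hord.ge) (h.near_mul_right hsσ h2s)
      rwa [add_comm] at this
    have hζA : ζ ∈ A := by
      have := add_mem ((h.mem_iff h0).2 (by rw [hord]; positivity)) (one_mem A)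
      rwa [sub_add_cancel] at this
    have hζinv : ζ ^ (p - 1) ∈ A := pow_mem hζA _
    set w := z * ζ ^ (p - 1) with hw
    have hζpow : ζ ^ (p - 1) * ζ = 1 := by
      rw [← pow_succ, Nat.sub_add_cancel h.prime.one_lt.le, hζ.pow_eq_one]
    have hη : (μ * (1 + s)) ^ 2 + 1 = ζ * (1 + w) := by
      have e : ζ * w = z := by rw [hw]; linear_combination z * hζpow
      rw [mul_add ζ, mul_one, e, hz]
      ring
    have hwnear : Near A p (σ + 1 / ((p : ℚ) - 1)) w := h.near_mul_right hznear hζinv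
    have hwA : w ∈ A := h.mem_of_near hwnear (by positivity)
    obtain ⟨r, hr, hrw⟩ := exists_pow_sub_one h w hwA
    have hpow : Near A p (γ + 1 / ((p : ℚ) - 1)) (((μ * (1 + s)) ^ 2 + 1) ^ p - 1) := by
      rw [hη, mul_pow, hζ.pow_eq_one, one_mul, hrw]
      refine h.near_add ?_ ?_
      · exact (near_pow_of_near h hwnear p).mono hγ2
      · refine h.near_mul_right (Near.mono ?_ (show γ + 1 / ((p : ℚ) - 1) ≤
          1 + (σ + 1 / ((p : ℚ) - 1)) by linarith)) hr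
        exact h.near_mul (Or.inr h.ord_p.ge) hwnear
    -- divide by `η - 1`
    have hv0 : (μ * (1 + s)) ^ 2 ≠ 0 ∧
        ord A p ((μ * (1 + s)) ^ 2) = 1 / ((p : ℚ) - 1) := by
      obtain ⟨hne, he⟩ := h.ord_add_eq h0 hznear (by rw [hord]; linarith)
      rw [show ζ - 1 + z = (μ * (1 + s)) ^ 2 by rw [hz]; ring] at hne he
      exact ⟨hne, he.trans hord⟩
    have hgeom := geom_sum_mul ((μ * (1 + s)) ^ 2 + 1) p
    rw [add_sub_cancel_right] at hgeom
    rw [e0]
    rcases eq_or_ne (∑ i ∈ Finset.range p, ((μ * (1 + s)) ^ 2 + 1) ^ i) 0 with e | e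
    · exact Or.inl e
    · refine Or.inr ?_
      rw [← hgeom] at hpow
      have := hpow.resolve_left (mul_ne_zero e hv0.1)
      rw [h.ord_mul e hv0.1, hv0.2] at this
      linarith
  have hd' : 2 * (p - 1) = 2 * (p - 1) * 1 := (mul_one _).symm
  have hd0 : 0 < 2 * (p - 1) := by have := h.prime.two_le; omega
  obtain ⟨ψ, hψ, huniq, hform⟩ := exists_twist h hlev (level_inertia h) hlev.le hd0 hd' (twist_id γ)
    (g := fun j => -(Q.coeff j : Ω)) hg (ϖ' := μ * (1 + s))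
    (Or.inl (by rw [sum_coeff_neg hmon hd, hroot, sub_zero, sub_self])) hϖ'A hnear
    (by simpa only [id, sum_coeff_neg hmon hd, sub_sub_cancel] using heval)
  refine ⟨ψ, hψ, huniq _ _ ?_ ?_, fun τ hτ a ha => ?_, fun a ha => ?_⟩
  · rw [← hμ]; exact pow_mem hlev.mem 2
  · refine ⟨fun j => if j = 2 then 1 else 0, fun j => by
      dsimp only; split
      · exact one_mem _
      · exact zero_mem _, Or.inl ?_, Or.inl ?_⟩ <;>
    · rw [sub_eq_zero, Finset.sum_eq_single 2 (fun j _ hj => by simp [hj]) (fun h2 => absurd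
        (Finset.mem_range.2 (by have := h.prime.two_le; omega)) h2)]
      simp [hμ]
  · obtain ⟨b, hb, e⟩ := hform a ha
    rw [e, map_sum]
    refine Finset.sum_congr rfl fun j _ => ?_
    rw [id, map_mul, map_pow, map_mul, (hb j).2 τ hτ.1, hτ.2, map_add, map_one, hs.2 τ hτ]
  · obtain ⟨b, hb, hbnear⟩ := exists_expansion h hlev (level_inertia h) hlev.le hd' hd0 ha γ
    have h1 := huniq a _ ha ⟨b, hb, hbnear, Or.inl (sub_self _)⟩
    have h2 : Near A p (σ + 1 / ((2 * (p - 1) : ℕ) : ℚ)) (∑ j ∈ Finset.range (2 * (p - 1)), id (b j) * (μ * (1 + s)) ^ j -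
        ∑ j ∈ Finset.range (2 * (p - 1)), b j * μ ^ j) := by
      rw [← Finset.sum_sub_distrib]
      refine h.near_sum _ _ fun j _ => ?_
      rw [id, ← mul_sub]
      refine h.near_mul_left (hb j).1 ?_
      rcases j with _ | j
      · exact Or.inl (by simp)
      obtain ⟨r, hr, hrs⟩ := exists_one_add_pow hs.1 (j + 1)
      rw [mul_pow, hrs, show μ ^ (j + 1) * (1 + s * (((j + 1 : ℕ) : Ω) + s * r)) - μ ^ (j + 1) =
        s * μ * (μ ^ j * (((j + 1 : ℕ) : Ω) + s * r)) by ring]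
      exact h.near_mul_right (h.near_mul hsσ (Or.inr hlev.ord_eq.ge))
        (mul_mem (pow_mem hlev.mem.1 j) (add_mem (natCast_mem A _) (mul_mem hs.1 hr)))
    have := h.near_add (h.near_add (h1.mono (min_le_left _ _)) (h2.mono (min_le_right _ _)))
      (h.near_neg (hbnear.mono (min_le_left γ _)))
    rwa [show ψ a - ∑ j ∈ Finset.range (2 * (p - 1)), id (b j) * (μ * (1 + s)) ^ j +
      (∑ j ∈ Finset.range (2 * (p - 1)), id (b j) * (μ * (1 + s)) ^ j -
        ∑ j ∈ Finset.range (2 * (p - 1)), b j * μ ^ j) +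
      -(a - ∑ j ∈ Finset.range (2 * (p - 1)), b j * μ ^ j) = ψ a - a by ring] at this

end Fermat.Agent.Mazur.Twist

end
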