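import Fermat.Agent.Mazur.Twist.Extend

/-!
# The ramification bound excludes `p ^ (1 / p)`

If the finite level `N` satisfies Fontaine's bound `p / (p - 1)`, twisted radicals would all be
fixed by `N`, but only finitely many Kummer classes can be.
-/

set_option autoImplicit false

open scoped Classical

noncomputable section

namespace Fermat.Agent.Mazur.Twist

open Fermat.Agent Fermat.Agent.FlatJ0

local notation "Ω" => AlgebraicClosure ℚ
local notation "G_ℚ" => (AlgebraicClosure ℚ) ≃ₐ[ℚ] (AlgebraicClosure ℚ)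

/-- Fontaine's bound `p / (p - 1)` for the level `N`. -/
def Bound (A : ValuationSubring Ω) (p : ℕ) (N : Subgroup G_ℚ) : Prop :=
  ∀ γ : ℚ, (p : ℚ) / (p - 1) < γ → HasBound A p N γ

variable {A : ValuationSubring Ω} {p : ℕ} (h : IsOver A p)

/-- If the bound holds for each member of a family, it holds for their intersection. -/
theorem bound_inf {N M : Subgroup G_ℚ} (hN : Bound A p N) (hM : Bound A p M) :
    Bound A p (N ⊓ M) := by
  intro γ hγ φ hφ σ hσ hfix
  have key : ∀ L : Subgroup G_ℚ, N ⊓ M ≤ L → Bound A p L → σ ∈ L := fun L hL hB =>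
    hB γ hγ φ ⟨fun x hx => hφ.mem x (fixRing_mono hL hx),
      fun x hx y hy => hφ.add x (fixRing_mono hL hx) y (fixRing_mono hL hy),
      fun x hx y hy => hφ.mul x (fixRing_mono hL hx) y (fixRing_mono hL hy), hφ.fixed⟩
      σ hσ fun x hx => hfix x (fixRing_mono hL hx)
  exact ⟨key N inf_le_left hN, key M inf_le_right hM⟩

lemma finiteIndex_mid {H K L : Subgroup G_ℚ} (hHK : H ≤ K) (hKL : K ≤ L)
    (hfin : (H.subgroupOf L).FiniteIndex) :
    (H.subgroupOf K).FiniteIndex ∧ (K.subgroupOf L).FiniteIndex := by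
  have h0 : H.relIndex L ≠ 0 := hfin.index_ne_zero
  rw [← Subgroup.relIndex_mul_relIndex H K L hHK hKL] at h0
  exact ⟨⟨left_ne_zero_of_mul h0⟩, ⟨right_ne_zero_of_mul h0⟩⟩

include h

/-- A twist of a level `K` extends to `N₀ = N ⊓ K` with image fixed by `N₀`. -/
theorem exists_fixed_extension {N K K' : Subgroup G_ℚ} {π : Ω} {eK : ℕ} {γ : ℚ} {ψ : Ω → Ω}
    (hN : Bound A p N) (hγ : (p : ℚ) / (p - 1) < γ) (hK : IsLevel A p K π eK)
    (hψ : IsTwist A p K γ ψ) (hK' : K' ≤ A.inertiaSubgroupIn ℚ)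
    (hfix : ∀ τ ∈ K', ∀ a ∈ fixRing A K, τ (ψ a) = ψ a)
    (hfin : ((N ⊓ K).subgroupOf (A.inertiaSubgroupIn ℚ)).FiniteIndex)
    (hsub : ∀ τ ∈ K', τ ∈ N → τ ∈ K) (hfin' : (K'.subgroupOf (A.inertiaSubgroupIn ℚ)).FiniteIndex)
    (hidx : (K'.subgroupOf (A.inertiaSubgroupIn ℚ)).index ≤
      (K.subgroupOf (A.inertiaSubgroupIn ℚ)).index) :
    N ⊓ K ≤ K' ∧ ∃ φ : Ω → Ω, IsTwist A p (N ⊓ K) γ φ ∧
      (∀ a ∈ fixRing A K, Near A p γ (φ a - ψ a)) ∧
      ∀ τ ∈ N ⊓ K, ∀ x ∈ fixRing A (N ⊓ K), τ (φ x) = φ x := by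
  have hp1 := one_sub_natCast_pos h
  have hγ1 : 1 ≤ γ := le_trans (by rw [le_div_iff₀ hp1]; linarith) hγ.le
  obtain ⟨hfinNK, -⟩ := finiteIndex_mid (inf_le_right : N ⊓ K ≤ K) hK.le hfin
  obtain ⟨φ, hφ, hφψ, K'', hK''le, hK''fix, hK''fin, hK''idx⟩ :=
    exists_extension h hK hψ hγ1 (inf_le_right : N ⊓ K ≤ K) hfix
  have hK''N : K'' ≤ N := fun σ hσ =>
    hN γ hγ φ ⟨fun x hx => hφ.hom.mem x (fixRing_mono inf_le_left hx),
      fun x hx y hy => hφ.hom.add x (fixRing_mono inf_le_left hx) y (fixRing_mono inf_le_left hy),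
      fun x hx y hy => hφ.hom.mul x (fixRing_mono inf_le_left hx) y (fixRing_mono inf_le_left hy),
      hφ.hom.fixed⟩ σ (hK' (hK''le hσ)) fun x hx =>
        Or.inl (sub_eq_zero.2 (hK''fix σ hσ x (fixRing_mono inf_le_left hx)))
  have hle : K'' ≤ N ⊓ K := fun σ hσ => ⟨hK''N hσ, hsub σ (hK''le hσ) (hK''N hσ)⟩
  set I := A.inertiaSubgroupIn ℚ
  have hN0 : 0 < (N ⊓ K).relIndex I := Nat.pos_of_ne_zero hfin.index_ne_zero
  have hK''0 : K''.relIndex I ≠ 0 := by
    rw [← Subgroup.relIndex_mul_relIndex K'' K' I hK''le hK']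
    exact mul_ne_zero hK''fin.index_ne_zero hfin'.index_ne_zero
  have hone : K''.relIndex (N ⊓ K) = 1 := by
    have h1 : K''.relIndex (N ⊓ K) * (N ⊓ K).relIndex I ≤ 1 * (N ⊓ K).relIndex I := by
      rw [one_mul, Subgroup.relIndex_mul_relIndex K'' (N ⊓ K) I hle (inf_le_right.trans hK.le),
        ← Subgroup.relIndex_mul_relIndex K'' K' I hK''le hK',
        ← Subgroup.relIndex_mul_relIndex (N ⊓ K) K I inf_le_right hK.le]
      exact Nat.mul_le_mul hK''idx hidx
    have h2 : K''.relIndex (N ⊓ K) ≠ 0 := fun e => hK''0 (by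
      rw [← Subgroup.relIndex_mul_relIndex K'' (N ⊓ K) I hle (inf_le_right.trans hK.le), e,
        zero_mul])
    have := Nat.le_of_mul_le_mul_right h1 hN0
    omega
  have hge : N ⊓ K ≤ K'' := Subgroup.relIndex_eq_one.1 hone
  exact ⟨hge.trans hK''le, φ, hφ, hφψ, fun τ hτ x hx => hK''fix τ (hge hτ) x hx⟩

/-- No infinite family of independent Kummer classes becomes trivial on a finite level. -/
theorem false_of_family {N K : Subgroup G_ℚ} {π : Ω} {eK : ℕ} (hK : IsLevel A p K π eK)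
    (hfin : (N.subgroupOf K).FiniteIndex) {x : ℕ → Ω}
    (hx : ∀ i, (∀ σ ∈ N, σ (x i) = x i) ∧ (∀ σ ∈ K, σ (x i ^ p) = x i ^ p) ∧ x i ≠ 0 ∧
      ord A p (x i) = 0) {k : ℚ} (hk : k < (p : ℚ) / (p - 1))
    (hne : ∀ i j, i ≠ j →
      x i ^ p / x j ^ p - 1 ≠ 0 ∧ ord A p (x i ^ p / x j ^ p - 1) = k)
    (hnot : ∀ n : ℕ, (n : ℚ) / eK ≠ k / p) : False := by
  have : Finite (K ⧸ N.subgroupOf K) := Fintype.ofFinite _ |>.finite
  let μ : Type := {z : Ω // z ∈ Polynomial.nthRootsFinset p (1 : Ω)}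
  let F : ℕ → (K ⧸ N.subgroupOf K) → μ := fun i q =>
    ⟨((q.out : K) : G_ℚ) (x i) / x i, (Polynomial.mem_nthRootsFinset h.prime.pos 1).2 (by
      rw [div_pow, ← map_pow, (hx i).2.1 _ (q.out : K).2, div_self (pow_ne_zero _ (hx i).2.2.1)])⟩
  obtain ⟨i, j, hij, hF⟩ := Finite.exists_ne_map_eq_of_infinite F
  set y := x i / x j with hy
  have hy0 : y ≠ 0 := div_ne_zero (hx i).2.2.1 (hx j).2.2.1
  have hyA : y ∈ A := (h.mem_iff hy0).2 (by
    rw [hy, h.ord_div (hx i).2.2.1 (hx j).2.2.1, (hx i).2.2.2, (hx j).2.2.2, sub_self])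
  have hyfix : ∀ σ ∈ K, σ y = y := by
    intro σ hσ
    obtain ⟨⟨n, hn⟩, hn'⟩ := QuotientGroup.mk_out_eq_mul (N.subgroupOf K) ⟨σ, hσ⟩
    have e := congrArg Subtype.val (congrFun hF (QuotientGroup.mk ⟨σ, hσ⟩))
    simp only [F] at e
    rw [hn'] at e
    have hnN : (n : G_ℚ) ∈ N := Subgroup.mem_subgroupOf.1 hn
    simp only [Subgroup.coe_mul, AlgEquiv.mul_apply] at e
    rw [(hx i).1 _ hnN, (hx j).1 _ hnN] at e
    have hsj : σ (x j) ≠ 0 := (map_ne_zero _).2 (hx j).2.2.1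
    rw [div_eq_div_iff (hx i).2.2.1 (hx j).2.2.1] at e
    rw [hy, map_div₀, div_eq_div_iff hsj (hx j).2.2.1, e, mul_comm]
  obtain ⟨hne', hord⟩ := hne i j hij
  rw [← div_pow] at hne' hord
  obtain ⟨hw0, hw⟩ := ord_sub_one_of_pow h hyA hne' hord hk
  obtain ⟨n, hn⟩ := hK.values (y - 1) ⟨sub_mem hyA (one_mem _), fun σ hσ => by
    rw [map_sub, map_one, hyfix σ hσ]⟩ hw0
  exact hnot n (hn.symm.trans hw)

/-- The level of `p ^ (1 / p)`. -/
lemma level_radical {π : Ω} (hπ : π ^ p = p) :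
    IsLevel A p (stabIn (A.inertiaSubgroupIn ℚ) π) π p ∧
      ((stabIn (A.inertiaSubgroupIn ℚ) π).subgroupOf (A.inertiaSubgroupIn ℚ)).FiniteIndex ∧
      ((stabIn (A.inertiaSubgroupIn ℚ) π).subgroupOf (A.inertiaSubgroupIn ℚ)).index = p := by
  set I := A.inertiaSubgroupIn ℚ
  set K := stabIn I π with hKdef
  have hp0 : (0 : ℚ) < p := by exact_mod_cast h.prime.pos
  have hP0 : (Polynomial.X ^ p - Polynomial.C (p : Ω)) ≠ 0 :=
    Polynomial.X_pow_sub_C_ne_zero h.prime.pos _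
  obtain ⟨hfin, hidx⟩ := index_stabIn (K := I) (x := π) hP0 fun σ _ => by
    simp [← map_pow, hπ]
  rw [Polynomial.natDegree_X_pow_sub_C] at hidx
  have := hfin
  have hπ0 : π ≠ 0 := fun e => h.natCast_ne_zero (by rw [← hπ, e, zero_pow h.prime.ne_zero])
  have hord : ord A p π = 1 / (p : ℚ) := by
    have := congrArg (ord A p) hπ
    rw [h.ord_pow hπ0, h.ord_p] at this
    field_simp
    linarith
  have hπK : π ∈ fixRing A K :=
    ⟨(h.mem_iff hπ0).2 (by rw [hord]; positivity), fun σ hσ => hσ.2⟩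
  obtain ⟨ϖ, eK, hlev⟩ := exists_level h (fun σ hσ => hσ.1 : K ≤ I)
  have hidx' : (K.subgroupOf I).index ≤ p := hidx
  obtain ⟨d, hd, he, hdle⟩ := exists_dvd h hlev (level_inertia h) (fun σ hσ => hσ.1 : K ≤ I) hfin
  rw [mul_one] at he
  obtain ⟨n, hn⟩ := hlev.values π hπK hπ0
  rw [hord, div_eq_div_iff hp0.ne' (by exact_mod_cast hlev.pos.ne'), one_mul] at hn
  have hn' : eK = n * p := by exact_mod_cast hn
  have hn1 : n = 1 := by
    rcases Nat.lt_or_ge n 2 with hlt | hge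
    · rcases Nat.eq_zero_or_pos n with h0 | h0
      · exact absurd (by rw [hn', h0, zero_mul]) hlev.pos.ne'
      · omega
    · have : 2 * p ≤ eK := hn' ▸ Nat.mul_le_mul_right p hge
      have : eK ≤ p := (he.le.trans hdle).trans hidx
      have := h.prime.pos
      omega
  rw [hn1, one_mul] at hn'
  subst hn'
  exact ⟨⟨fun σ hσ => hσ.1, h.prime.pos, hπK, hπ0, hord, hlev.values⟩, hfin,
    le_antisymm hidx (he ▸ hdle)⟩

/-- Radicals twisted by independent classes cannot all satisfy the bound. -/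
theorem false_of_radicals {N : Subgroup G_ℚ} (hN : Bound A p N) (hNI : N ≤ A.inertiaSubgroupIn ℚ)
    [hfin : (N.subgroupOf (A.inertiaSubgroupIn ℚ)).FiniteIndex] {π : Ω} (hπ : π ^ p = p)
    (hfix : ∀ σ ∈ N, σ π = π) {γ : ℚ} (hγ : (p : ℚ) / (p - 1) < γ) {P c u : ℕ → Ω}
    (hu : ∀ i, u i ∈ fixRing A (A.inertiaSubgroupIn ℚ) ∧ u i ≠ 0 ∧ ord A p (u i) = 0)
    (hc : ∀ i, c i ∈ fixRing A (A.inertiaSubgroupIn ℚ) ∧ Near A p 1 (c i))
    (hP : ∀ i, P i ^ p = (p : Ω) * u i)
    (happrox : ∀ i, Near A p γ ((P i + c i) ^ p - p))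
    {k : ℚ} (hk : k < (p : ℚ) / (p - 1))
    (hne : ∀ i j, i ≠ j → u i / u j - 1 ≠ 0 ∧ ord A p (u i / u j - 1) = k)
    (hnot : ∀ n : ℕ, (n : ℚ) ≠ k / p) : False := by
  set I := A.inertiaSubgroupIn ℚ
  obtain ⟨hK, hKfin, hKidx⟩ := level_radical h hπ
  set K := stabIn I π
  have hp0 : (0 : ℚ) < p := by exact_mod_cast h.prime.pos
  have hp1 := one_sub_natCast_pos h
  have hπ0 := hK.ne
  have hNK : N ≤ K := fun σ hσ => ⟨hNI hσ, hfix σ hσ⟩
  have hinf : N ⊓ K = N := inf_eq_left.2 hNK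
  have hP0 : ∀ i, P i ≠ 0 := fun i e => mul_ne_zero h.natCast_ne_zero (hu i).2.1 (by
    rw [← hP i, e, zero_pow h.prime.ne_zero])
  have hPord : ∀ i, ord A p (P i) = 1 / (p : ℚ) := fun i => by
    have := congrArg (ord A p) (hP i)
    rw [h.ord_pow (hP0 i), h.ord_mul h.natCast_ne_zero (hu i).2.1, h.ord_p, (hu i).2.2, add_zero]
      at this
    field_simp
    linarith
  have hPfix : ∀ i, ∀ σ ∈ N, σ (P i) = P i := by
    intro i
    have hn : Near A p (1 / (p : ℚ)) (P i + c i) :=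
      h.near_add (Or.inr (hPord i).ge) ((hc i).2.mono (by
        rw [div_le_one hp0]; exact_mod_cast h.prime.one_lt.le))
    have hg : ∀ j : ℕ, (if j = 0 then (p : Ω) else 0) ∈ fixRing A I := fun j => by
      split
      · exact ⟨natCast_mem A p, fun σ _ => map_natCast σ p⟩
      · exact zero_mem _
    have hsum : ∀ z : Ω, ∑ j ∈ Finset.range p, (if j = 0 then (p : Ω) else 0) * z ^ j = p :=
      fun z => by
        rw [Finset.sum_eq_single 0 (fun j _ hj => by simp [hj])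
          (fun h0 => absurd (Finset.mem_range.2 h.prime.pos) h0)]
        simp
    obtain ⟨ψ, hψ, -, hform⟩ := exists_twist h hK (level_inertia h) hK.le h.prime.pos
      (mul_one p).symm (twist_id γ) (g := fun j => if j = 0 then (p : Ω) else 0) hg
      (ϖ' := P i + c i) (Or.inl (by rw [hsum, hπ, sub_self]))
      (h.mem_of_near hn (by positivity)) hn (by simpa only [id, hsum] using happrox i)
    have hKP : stabIn I (P i) ≤ I := fun σ hσ => hσ.1
    obtain ⟨hfin', hidx⟩ := index_stabIn (K := I) (x := P i)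
      (Polynomial.X_pow_sub_C_ne_zero h.prime.pos ((p : Ω) * u i)) fun σ hσ => by
        simp [← map_pow, hP i, (hu i).1.2 σ hσ]
    rw [Polynomial.natDegree_X_pow_sub_C] at hidx
    obtain ⟨hle, -⟩ := exists_fixed_extension h hN hγ hK hψ hKP (fun τ hτ a ha => by
        obtain ⟨b, hb, e⟩ := hform a ha
        rw [e, map_sum]
        refine Finset.sum_congr rfl fun j _ => ?_
        rw [id, map_mul, map_pow, map_add, (hb j).2 τ hτ.1, hτ.2, (hc i).1.2 τ hτ.1])
      (by rw [hinf]; exact hfin) (fun τ _ hτN => hNK hτN) hfin' (hidx.trans hKidx.ge)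
    exact fun σ hσ => (hle (hinf.ge hσ)).2
  have hxpow : ∀ i, (P i / π) ^ p = u i := fun i => by
    rw [div_pow, hP i, hπ, mul_div_cancel_left₀ _ h.natCast_ne_zero]
  refine false_of_family h (level_inertia h) hfin (x := fun i => P i / π) (fun i =>
    ⟨fun σ hσ => by rw [map_div₀, hPfix i σ hσ, hfix σ hσ],
      fun σ hσ => by rw [hxpow, (hu i).1.2 σ hσ], div_ne_zero (hP0 i) hπ0, by
        rw [h.ord_div (hP0 i) hπ0, hPord i, hK.ord_eq, sub_self]⟩) hk
    (fun i j hij => by simpa only [hxpow] using hne i j hij)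
    (fun n => by simpa using hnot n)

/-- The bound forbids a level fixing `p ^ (1 / p)`. -/
theorem not_fixed_radical {N : Subgroup G_ℚ} (hN : Bound A p N) (hNI : N ≤ A.inertiaSubgroupIn ℚ)
    [hfin : (N.subgroupOf (A.inertiaSubgroupIn ℚ)).FiniteIndex] {π : Ω} (hπ : π ^ p = p) :
    ¬ ∀ σ ∈ N, σ π = π := by
  intro hfix
  obtain ⟨t, ht, htdiff⟩ := exists_reps_injective h
  set I := A.inertiaSubgroupIn ℚ
  have hp0 : (0 : ℚ) < p := by exact_mod_cast h.prime.pos
  have hpmem : (p : Ω) ∈ fixRing A I := ⟨natCast_mem A p, fun σ _ => map_natCast σ p⟩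
  have hroot : ∀ z : Ω, ∃ y, y ^ p = z := fun z => IsAlgClosed.exists_pow_nat_eq z h.prime.pos
  have hnot : ∀ n : ℕ, (n : ℚ) ≠ 1 / p := fun n e => by
    have e' : (n : ℚ) * p = 1 := by rw [e]; field_simp
    have e'' : n * p = 1 := by exact_mod_cast e'
    exact h.prime.one_lt.ne' (Nat.eq_one_of_mul_eq_one_left e'')
  rcases eq_or_ne p 2 with hp2 | hp2
  · -- `p = 2`
    subst hp2
    set u : ℕ → Ω := fun i => 1 + 2 * t i ^ 2 with hu
    choose P hP using fun i => hroot ((2 : ℕ) * u i)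
    have h2near : Near A 2 1 (2 : Ω) := by
      have : Near A 2 1 ((2 : ℕ) : Ω) := Or.inr h.ord_p.ge
      simpa using this
    have huf : ∀ i, u i ∈ fixRing A I ∧ u i ≠ 0 ∧ ord A 2 (u i) = 0 := fun i => by
      have hm : u i ∈ fixRing A I :=
        add_mem (one_mem _) (mul_mem (by exact_mod_cast hpmem) (pow_mem (ht i).1 2))
      obtain ⟨hne, he⟩ := h.ord_add_eq one_ne_zero (y := 2 * t i ^ 2) (γ := 1)
        (h.near_mul_right h2near (pow_mem (ht i).1.1 2)) (by rw [h.ord_one]; norm_num)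
      exact ⟨hm, hne, he.trans h.ord_one⟩
    refine false_of_radicals h (γ := 9 / 4) (c := fun i => 2 * t i) hN hNI hπ hfix (by norm_num)
      huf (fun i => ⟨mul_mem (by exact_mod_cast hpmem) (ht i).1,
        h.near_mul_right h2near (ht i).1.1⟩) hP (fun i => ?_) (k := 1) (by norm_num)
      (fun i j hij => ?_) hnot
    · have hP0 : P i ≠ 0 := fun e => mul_ne_zero h.natCast_ne_zero (huf i).2.1 (by
        rw [← hP i, e, zero_pow two_ne_zero])
      have hPn : Near A 2 (1 / 2) (P i) := Or.inr (by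
        have := congrArg (ord A 2) (hP i)
        rw [h.ord_pow hP0, h.ord_mul h.natCast_ne_zero (huf i).2.1, h.ord_p, (huf i).2.2] at this
        push_cast at this
        linarith)
      have e : (P i + 2 * t i) ^ 2 - ((2 : ℕ) : Ω) =
          2 * (2 * (2 * t i ^ 2)) + 2 * (2 * (t i * P i)) := by
        have := hP i
        push_cast at this ⊢
        simp only [hu] at this
        linear_combination this
      rw [e]
      refine h.near_add ?_ ?_
      · exact (h.near_mul h2near (h.near_mul h2near (h.near_mul_right h2near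
          (pow_mem (ht i).1.1 2)))).mono (by norm_num)
      · exact (h.near_mul h2near (h.near_mul h2near (h.near_mul_left (ht i).1.1 hPn))).mono
          (by norm_num)
    · obtain ⟨hd0, hd⟩ := htdiff i j hij
      obtain ⟨hs0, hs⟩ := h.ord_add_eq hd0 (y := 2 * t j) (γ := 1)
        (h.near_mul_right h2near (ht j).1.1) (by rw [hd]; norm_num)
      have e : u i / u j - 1 = ((2 : ℕ) : Ω) * ((t i - t j) * (t i - t j + 2 * t j)) / u j := by
        rw [div_sub_one (huf j).2.1]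
        push_cast
        simp only [hu]
        ring
      rw [e]
      refine ⟨div_ne_zero (mul_ne_zero h.natCast_ne_zero (mul_ne_zero hd0 hs0)) (huf j).2.1, ?_⟩
      rw [h.ord_div (mul_ne_zero h.natCast_ne_zero (mul_ne_zero hd0 hs0)) (huf j).2.1,
        h.ord_mul h.natCast_ne_zero (mul_ne_zero hd0 hs0), h.ord_mul hd0 hs0, h.ord_p, hs, hd,
        (huf j).2.2]
      norm_num
  · -- odd `p`
    have hp3 : (3 : ℚ) ≤ p := by
      exact_mod_cast (show 3 ≤ p by have := h.prime.two_le; omega)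
    set u : ℕ → Ω := fun i => 1 + (p : Ω) * t i with hu
    choose P hP using fun i => hroot ((p : Ω) * u i)
    have huf : ∀ i, u i ∈ fixRing A I ∧ u i ≠ 0 ∧ ord A p (u i) = 0 := fun i => by
      obtain ⟨hne, he⟩ := h.ord_add_eq one_ne_zero (y := (p : Ω) * t i) (γ := 1)
        (h.near_mul_right (Or.inr h.ord_p.ge) (ht i).1.1) (by rw [h.ord_one]; norm_num)
      exact ⟨add_mem (one_mem _) (mul_mem hpmem (ht i).1), hne, he.trans h.ord_one⟩
    have hp1 := one_sub_natCast_pos h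
    have hlt : (p : ℚ) / (p - 1) < 2 := by rw [div_lt_iff₀ hp1]; linarith
    refine false_of_radicals h (γ := 2) (c := fun _ => 0) hN hNI hπ hfix hlt
      huf (fun _ => ⟨zero_mem _, near_zero _⟩) hP (fun i => ?_) (k := 1)
      (by rw [lt_div_iff₀ hp1]; linarith) (fun i j hij => ?_) hnot
    · have e : (P i + 0) ^ p - (p : Ω) = (p : Ω) * ((p : Ω) * t i) := by
        rw [add_zero, hP i, hu]; ring
      rw [e]
      exact (h.near_mul (Or.inr h.ord_p.ge) (h.near_mul_right (Or.inr h.ord_p.ge)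
        (ht i).1.1)).mono (by norm_num)
    · obtain ⟨hd0, hd⟩ := htdiff i j hij
      have e : u i / u j - 1 = (p : Ω) * (t i - t j) / u j := by
        rw [div_sub_one (huf j).2.1]; simp only [hu]; ring
      rw [e]
      refine ⟨div_ne_zero (mul_ne_zero h.natCast_ne_zero hd0) (huf j).2.1, ?_⟩
      rw [h.ord_div (mul_ne_zero h.natCast_ne_zero hd0) (huf j).2.1,
        h.ord_mul h.natCast_ne_zero hd0, h.ord_p, hd, (huf j).2.2]
      norm_num

end Fermat.Agent.Mazur.Twist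

end
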