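import Fermat.Agent.Mazur.Twist.Basic

/-!
# Extending homomorphisms modulo `ord ≥ γ` along a totally ramified level

The integers of a finite level `N` are, up to `ord ≥ γ`, polynomials of bounded degree in a
uniformiser over the integers of a bigger level `K`.  So a homomorphism on the latter extends
by sending the uniformiser to an approximate root of the transformed equation.
-/

set_option autoImplicit false

open scoped Classical

noncomputable section

namespace Fermat.Agent.Mazur.Twist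

open Fermat.Agent Fermat.Agent.FlatJ0

local notation "Ω" => AlgebraicClosure ℚ
local notation "G_ℚ" => (AlgebraicClosure ℚ) ≃ₐ[ℚ] (AlgebraicClosure ℚ)

/-- `ϖ` is a uniformiser of the level `K`, with value `1 / eK`. -/
structure IsLevel (A : ValuationSubring Ω) (p : ℕ) (K : Subgroup G_ℚ) (ϖ : Ω) (eK : ℕ) : Prop
    where
  le : K ≤ A.inertiaSubgroupIn ℚ
  pos : 0 < eK
  mem : ϖ ∈ fixRing A K
  ne : ϖ ≠ 0
  ord_eq : ord A p ϖ = 1 / (eK : ℚ)
  values : ∀ x ∈ fixRing A K, x ≠ 0 → ∃ j : ℕ, ord A p x = (j : ℚ) / eK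

/-- A homomorphism modulo `ord ≥ γ` which does not lower values. -/
structure IsTwist (A : ValuationSubring Ω) (p : ℕ) (K : Subgroup G_ℚ) (γ : ℚ) (ψ : Ω → Ω) : Prop
    where
  hom : IsHomMod A p K γ ψ
  near : ∀ x ∈ fixRing A K, ∀ δ : ℚ, δ ≤ γ → Near A p δ x → Near A p δ (ψ x)

variable {A : ValuationSubring Ω} {p : ℕ} (h : IsOver A p)

include h

lemma exists_level {K : Subgroup G_ℚ} (hK : K ≤ A.inertiaSubgroupIn ℚ)
    [(K.subgroupOf (A.inertiaSubgroupIn ℚ)).FiniteIndex] :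
    ∃ (ϖ : Ω) (eK : ℕ), IsLevel A p K ϖ eK := by
  obtain ⟨π, e, he, hπ, hπ0, hord, hmul⟩ := h.exists_uniformiser (N := K)
  refine ⟨π, e, ⟨hK, he, hπ, hπ0, hord, fun x hx hx0 => ?_⟩⟩
  obtain ⟨j, u, hxu, hu, -, hu0⟩ := hmul x hx hx0
  have hune : u ≠ 0 := fun e' => hx0 (by rw [hxu, e', mul_zero])
  exact ⟨j, by rw [hxu, h.ord_mul (pow_ne_zero _ hπ0) hune, h.ord_pow hπ0, hord, hu0, add_zero,
    mul_one_div]⟩

lemma level_inertia : IsLevel A p (A.inertiaSubgroupIn ℚ) (p : Ω) 1 := by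
  refine ⟨le_rfl, one_pos, ⟨natCast_mem A p, fun σ _ => map_natCast σ p⟩, h.natCast_ne_zero,
    by rw [h.ord_p]; simp, fun x hx hx0 => ?_⟩
  obtain ⟨z, hz⟩ := h.exists_ord_eq_int hx.2
  have h0 : (0 : ℚ) ≤ (z : ℚ) := hz ▸ (h.mem_iff hx0).1 hx.1
  obtain ⟨n, rfl⟩ := Int.eq_ofNat_of_zero_le (show 0 ≤ z by exact_mod_cast h0)
  exact ⟨n, by rw [hz]; simp⟩

omit h in
lemma twist_id (γ : ℚ) : IsTwist A p (A.inertiaSubgroupIn ℚ) γ id :=
  ⟨⟨fun x hx => hx.1, fun x _ y _ => Or.inl (by simp), fun x _ y _ => Or.inl (by simp),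
    fun x _ => Or.inl (sub_self x)⟩, fun _ _ _ _ hx => hx⟩

omit h in
lemma fixRing_mono {N K : Subgroup G_ℚ} (hNK : N ≤ K) : fixRing A K ≤ fixRing A N :=
  fun _ hx => ⟨hx.1, fun σ hσ => hx.2 σ (hNK hσ)⟩

/-- The ratio of the value groups is at most the index. -/
lemma exists_dvd {N K : Subgroup G_ℚ} {ϖ π : Ω} {eN eK : ℕ} (hN : IsLevel A p N ϖ eN)
    (hK : IsLevel A p K π eK) (hNK : N ≤ K) (hfin : (N.subgroupOf K).FiniteIndex) :
    ∃ d, 0 < d ∧ eN = d * eK ∧ d ≤ (N.subgroupOf K).index := by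
  obtain ⟨j, hj⟩ := hN.values π (fixRing_mono hNK hK.mem) hK.ne
  rw [hK.ord_eq, div_eq_div_iff (by exact_mod_cast hK.pos.ne') (by exact_mod_cast hN.pos.ne'),
    one_mul] at hj
  have hj' : eN = j * eK := by exact_mod_cast hj
  have hjpos : 0 < j := Nat.pos_of_ne_zero fun e => hN.pos.ne' (by rw [hj', e, zero_mul])
  obtain ⟨y, hy, hy0, hyord⟩ := exists_norm h hK.le hfin hN.mem hN.ne
  obtain ⟨i, hi⟩ := hK.values y hy hy0
  refine ⟨j, hjpos, hj', Nat.le_of_dvd (Nat.pos_of_ne_zero hfin.index_ne_zero) ⟨i, ?_⟩⟩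
  rw [hi, hN.ord_eq, hj'] at hyord
  have hK' : (eK : ℚ) ≠ 0 := by exact_mod_cast hK.pos.ne'
  have hj0 : (j : ℚ) ≠ 0 := by exact_mod_cast hjpos.ne'
  push_cast at hyord
  field_simp at hyord
  exact_mod_cast (show ((N.subgroupOf K).index : ℚ) = (j : ℚ) * i by linarith)

variable {N K : Subgroup G_ℚ} {ϖ π : Ω} {eN eK d : ℕ}

/-- Expansions in the uniformiser. -/
lemma exists_expansion (hN : IsLevel A p N ϖ eN) (hK : IsLevel A p K π eK) (hNK : N ≤ K)
    (he : eN = d * eK) (hd : 0 < d) {x : Ω} (hx : x ∈ fixRing A N) (γ : ℚ) :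
    ∃ a : ℕ → Ω, (∀ j, a j ∈ fixRing A K) ∧
      Near A p γ (x - ∑ j ∈ Finset.range d, a j * ϖ ^ j) := by
  have hbound : ∀ m : ℕ, ∃ a : ℕ → Ω, (∀ j, a j ∈ fixRing A K) ∧
      Near A p ((m : ℚ) / eN) (x - ∑ j ∈ Finset.range d, a j * ϖ ^ j) := by
    intro m
    induction m with
    | zero =>
      exact ⟨fun _ => 0, fun _ => zero_mem _, by simpa using h.near_of_mem hx.1⟩
    | succ m ih =>
      obtain ⟨a, ha, hnear⟩ := ih
      set x' := x - ∑ j ∈ Finset.range d, a j * ϖ ^ j with hx'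
      rcases eq_or_ne x' 0 with h0 | h0
      · exact ⟨a, ha, Or.inl h0⟩
      have hx'N : x' ∈ fixRing A N := sub_mem hx
        (sum_mem fun j _ => mul_mem (fixRing_mono hNK (ha j)) (pow_mem hN.mem j))
      set c := π ^ (m / d) * ϖ ^ (m % d) with hc
      have hc0 : c ≠ 0 := mul_ne_zero (pow_ne_zero _ hK.ne) (pow_ne_zero _ hN.ne)
      have hcord : ord A p c = (m : ℚ) / eN := by
        rw [hc, h.ord_mul (pow_ne_zero _ hK.ne) (pow_ne_zero _ hN.ne), h.ord_pow hK.ne,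
          h.ord_pow hN.ne, hK.ord_eq, hN.ord_eq, he]
        have e : ((d * (m / d) + m % d : ℕ) : ℚ) = m := by rw [Nat.div_add_mod]
        push_cast at e
        have hd' : (d : ℚ) ≠ 0 := by exact_mod_cast hd.ne'
        have he' : (eK : ℚ) ≠ 0 := by exact_mod_cast hK.pos.ne'
        push_cast
        field_simp
        linarith
      set u := x' / c with hu
      have hu0 : u ≠ 0 := div_ne_zero h0 hc0
      have huA : u ∈ A := (h.mem_iff hu0).2 (by
        rw [hu, h.ord_div h0 hc0, hcord, sub_nonneg]; exact hnear.resolve_left h0)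
      obtain ⟨t, ht, htu⟩ := exists_rep h huA
      refine ⟨fun j => if j = m % d then a j + t * π ^ (m / d) else a j, fun j => ?_, ?_⟩
      · dsimp only
        split
        · exact add_mem (ha j) (mul_mem (fixRing_mono hK.le ht) (pow_mem hK.mem _))
        · exact ha j
      have hsum : x - ∑ j ∈ Finset.range d,
          (if j = m % d then a j + t * π ^ (m / d) else a j) * ϖ ^ j = (u - t) * c := by
        rw [Finset.sum_congr rfl fun j _ => show (if j = m % d then a j + t * π ^ (m / d) else a j) *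
            ϖ ^ j = a j * ϖ ^ j + (if j = m % d then t * π ^ (m / d) * ϖ ^ j else 0) by
          split <;> ring, Finset.sum_add_distrib, Finset.sum_ite_eq',
          if_pos (Finset.mem_range.2 (Nat.mod_lt _ hd)), sub_mul, hu, div_mul_cancel₀ _ hc0, hx',
          hc]
        ring
      rw [hsum]
      rcases eq_or_ne (u - t) 0 with he0 | he0
      · exact Or.inl (by rw [he0, zero_mul])
      refine Or.inr ?_
      have hz : (u - t) * c ∈ fixRing A N := by
        have e : (u - t) * c = x' - t * c := by rw [sub_mul, hu, div_mul_cancel₀ _ hc0]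
        rw [e, hc]
        exact sub_mem hx'N (mul_mem (fixRing_mono (hNK.trans hK.le) ht)
          (mul_mem (pow_mem (fixRing_mono hNK hK.mem) _) (pow_mem hN.mem _)))
      obtain ⟨i, hi⟩ := hN.values _ hz (mul_ne_zero he0 hc0)
      have hpos : 0 < ord A p (u - t) := (h.nonunit_iff he0).1 htu
      have hlt : (m : ℚ) / eN < (i : ℚ) / eN := by
        rw [← hi, h.ord_mul he0 hc0, hcord]; linarith
      rw [hi]
      have heN : (0 : ℚ) < eN := by exact_mod_cast hN.pos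
      rw [div_lt_div_iff_of_pos_right heN, Nat.cast_lt] at hlt
      exact div_le_div_of_nonneg_right (by exact_mod_cast hlt) heN.le
  obtain ⟨m, hm⟩ := exists_nat_ge (γ * eN)
  obtain ⟨a, ha, hnear⟩ := hbound m
  exact ⟨a, ha, hnear.mono ((le_div_iff₀ (by exact_mod_cast hN.pos)).2 hm)⟩

/-- A combination of low powers of the uniformiser is as large as its largest term. -/
lemma near_coeff (hN : IsLevel A p N ϖ eN) (hK : IsLevel A p K π eK) (he : eN = d * eK)
    {a : ℕ → Ω} (ha : ∀ j, a j ∈ fixRing A K) {γ : ℚ}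
    (hsum : Near A p γ (∑ j ∈ Finset.range d, a j * ϖ ^ j)) {j : ℕ} (hj : j < d) :
    Near A p (γ - (j : ℚ) / eN) (a j) := by
  by_contra hbad
  set S := (Finset.range d).filter fun i => a i * ϖ ^ i ≠ 0 with hS
  have haj : a j ≠ 0 := fun e => hbad (Or.inl e)
  have hjS : j ∈ S := Finset.mem_filter.2 ⟨Finset.mem_range.2 hj,
    mul_ne_zero haj (pow_ne_zero _ hN.ne)⟩
  have hnat : ∀ i ∈ S, ∃ n : ℕ, ord A p (a i * ϖ ^ i) = (n : ℚ) / eN ∧ n % d = i := by
    intro i hi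
    obtain ⟨hid, hi0⟩ := Finset.mem_filter.1 hi
    obtain ⟨l, hl⟩ := hK.values _ (ha i) (left_ne_zero_of_mul hi0)
    refine ⟨d * l + i, ?_, by
      rw [Nat.mul_add_mod, Nat.mod_eq_of_lt (Finset.mem_range.1 hid)]⟩
    rw [h.ord_mul (left_ne_zero_of_mul hi0) (right_ne_zero_of_mul hi0), h.ord_pow hN.ne,
      hN.ord_eq, hl, he]
    have hd' : (d : ℚ) ≠ 0 := by exact_mod_cast (show d ≠ 0 by omega)
    have he' : (eK : ℚ) ≠ 0 := by exact_mod_cast hK.pos.ne'
    push_cast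
    field_simp
  choose! n hn using hnat
  obtain ⟨i₀, hi₀, hmin⟩ := S.exists_min_image n ⟨j, hjS⟩
  have heN : (0 : ℚ) < eN := by exact_mod_cast hN.pos
  have hrest : Near A p (((n i₀ + 1 : ℕ) : ℚ) / eN)
      (∑ i ∈ (Finset.range d).erase i₀, a i * ϖ ^ i) := by
    refine h.near_sum _ _ fun i hi => ?_
    by_cases hiS : i ∈ S
    · refine Or.inr ?_
      rw [(hn i hiS).1]
      refine div_le_div_of_nonneg_right ?_ heN.le
      have hne : n i₀ ≠ n i := fun e => (Finset.mem_erase.1 hi).1 (by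
        rw [← (hn i hiS).2, ← e, (hn i₀ hi₀).2])
      exact_mod_cast (Nat.lt_of_le_of_ne (hmin i hiS) hne)
    · left
      by_contra e
      exact hiS (Finset.mem_filter.2 ⟨(Finset.mem_erase.1 hi).2, e⟩)
  obtain ⟨hne, heq⟩ := h.ord_add_eq (Finset.mem_filter.1 hi₀).2 hrest (by
    rw [(hn i₀ hi₀).1, div_lt_div_iff_of_pos_right heN]; exact_mod_cast Nat.lt_succ_self _)
  rw [Finset.add_sum_erase _ (fun i => a i * ϖ ^ i) (Finset.mem_filter.1 hi₀).1] at hne heq
  have h1 := hsum.resolve_left hne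
  rw [heq, (hn i₀ hi₀).1] at h1
  refine hbad (Or.inr ?_)
  have h2 : (n i₀ : ℚ) / eN ≤ (n j : ℚ) / eN :=
    div_le_div_of_nonneg_right (by exact_mod_cast hmin j hjS) heN.le
  have h3 : ord A p (a j * ϖ ^ j) = ord A p (a j) + (j : ℚ) / eN := by
    rw [h.ord_mul haj (pow_ne_zero _ hN.ne), h.ord_pow hN.ne, hN.ord_eq, mul_one_div]
  rw [(hn j hjS).1] at h3
  linarith

lemma near_pow_of_near {δ : ℚ} {x : Ω} (hx : Near A p δ x) (j : ℕ) :
    Near A p ((j : ℚ) * δ) (x ^ j) := by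
  induction j with
  | zero => simpa using h.near_of_mem (one_mem A)
  | succ j ih =>
    rw [pow_succ, show ((j + 1 : ℕ) : ℚ) * δ = (j : ℚ) * δ + δ by push_cast; ring]
    exact h.near_mul ih hx

omit h in
/-- The graph of the extension. -/
def Rel (A : ValuationSubring Ω) (p : ℕ) (K : Subgroup G_ℚ) (γ : ℚ) (ψ : Ω → Ω) (ϖ ϖ' : Ω)
    (d : ℕ) (x y : Ω) : Prop :=
  ∃ a : ℕ → Ω, (∀ j, a j ∈ fixRing A K) ∧
    Near A p γ (x - ∑ j ∈ Finset.range d, a j * ϖ ^ j) ∧
    Near A p γ (y - ∑ j ∈ Finset.range d, ψ (a j) * ϖ' ^ j)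

variable {γ : ℚ} {ψ : Ω → Ω} {ϖ' : Ω}

lemma Rel.perturb {x y x' y' : Ω} (hr : Rel A p K γ ψ ϖ ϖ' d x y)
    (hx : Near A p γ (x' - x)) (hy : Near A p γ (y' - y)) :
    Rel A p K γ ψ ϖ ϖ' d x' y' := by
  obtain ⟨a, ha, h1, h2⟩ := hr
  exact ⟨a, ha, h.near_trans hx h1, h.near_trans hy h2⟩

lemma Rel.add (hψ : IsTwist A p K γ ψ) (hϖ' : ϖ' ∈ A) {x y x' y' : Ω}
    (hr : Rel A p K γ ψ ϖ ϖ' d x y) (hr' : Rel A p K γ ψ ϖ ϖ' d x' y') :
    Rel A p K γ ψ ϖ ϖ' d (x + x') (y + y') := by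
  obtain ⟨a, ha, h1, h2⟩ := hr
  obtain ⟨b, hb, h3, h4⟩ := hr'
  refine ⟨fun j => a j + b j, fun j => add_mem (ha j) (hb j), ?_, ?_⟩
  · have := h.near_add h1 h3
    simp only [add_mul, Finset.sum_add_distrib]
    rwa [← add_sub_add_comm] at this
  · have e1 : Near A p γ (∑ j ∈ Finset.range d, ψ (a j) * ϖ' ^ j +
        ∑ j ∈ Finset.range d, ψ (b j) * ϖ' ^ j -
        ∑ j ∈ Finset.range d, ψ (a j + b j) * ϖ' ^ j) := by
      rw [← Finset.sum_add_distrib, ← Finset.sum_sub_distrib]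
      refine h.near_sum _ _ fun j _ => ?_
      rw [← add_mul, ← sub_mul]
      refine h.near_mul_right ?_ (pow_mem hϖ' j)
      have := h.near_neg (hψ.hom.add _ (ha j) _ (hb j))
      rwa [show -(ψ (a j + b j) - ψ (a j) - ψ (b j)) = ψ (a j) + ψ (b j) - ψ (a j + b j) by ring]
        at this
    have := h.near_add h2 h4
    rw [← add_sub_add_comm] at this
    exact h.near_trans this e1

lemma Rel.smul (hψ : IsTwist A p K γ ψ) (hϖ' : ϖ' ∈ A) {c x y : Ω} (hc : c ∈ fixRing A K)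
    (hr : Rel A p K γ ψ ϖ ϖ' d x y) : Rel A p K γ ψ ϖ ϖ' d (c * x) (ψ c * y) := by
  obtain ⟨a, ha, h1, h2⟩ := hr
  refine ⟨fun j => c * a j, fun j => mul_mem hc (ha j), ?_, ?_⟩
  · simp only [mul_assoc, ← Finset.mul_sum, ← mul_sub]
    exact h.near_mul_left hc.1 h1
  · have e1 : Near A p γ (ψ c * ∑ j ∈ Finset.range d, ψ (a j) * ϖ' ^ j -
        ∑ j ∈ Finset.range d, ψ (c * a j) * ϖ' ^ j) := by
      rw [Finset.mul_sum, ← Finset.sum_sub_distrib]
      refine h.near_sum _ _ fun j _ => ?_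
      rw [← mul_assoc, ← sub_mul]
      exact h.near_mul_right (h.near_sub_comm (hψ.hom.mul _ hc _ (ha j))) (pow_mem hϖ' j)
    have := h.near_mul_left (hψ.hom.mem c hc) h2
    rw [mul_sub] at this
    exact h.near_trans this e1

lemma Rel.functional (hN : IsLevel A p N ϖ eN) (hK : IsLevel A p K π eK)
    (hψ : IsTwist A p K γ ψ) (he : eN = d * eK) (_hϖ' : ϖ' ∈ A)
    (hnear : Near A p (1 / (eN : ℚ)) ϖ') {δ : ℚ} (hδ : δ ≤ γ) {x y : Ω}
    (hr : Rel A p K γ ψ ϖ ϖ' d x y) (hx : Near A p δ x) : Near A p δ y := by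
  obtain ⟨a, ha, h1, h2⟩ := hr
  have h3 : Near A p δ (∑ j ∈ Finset.range d, a j * ϖ ^ j) := by
    have := h.near_sub hx (h1.mono hδ)
    rwa [sub_sub_cancel] at this
  have h4 : Near A p δ (∑ j ∈ Finset.range d, ψ (a j) * ϖ' ^ j) := by
    refine h.near_sum _ _ fun j hj => ?_
    have h5 := near_coeff h hN hK he ha h3 (Finset.mem_range.1 hj)
    have h6 := hψ.near _ (ha j) _ (by
      have : (0 : ℚ) ≤ (j : ℚ) / eN := by positivity
      linarith) h5
    have := h.near_mul h6 (near_pow_of_near h hnear j)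
    rwa [mul_one_div, sub_add_cancel] at this
  have := h.near_add (h2.mono hδ) h4
  rwa [sub_add_cancel] at this

/-- Extension of a twist by an approximate root. -/
theorem exists_twist (hN : IsLevel A p N ϖ eN) (hK : IsLevel A p K π eK) (hNK : N ≤ K)
    (hd : 0 < d) (he : eN = d * eK) (hψ : IsTwist A p K γ ψ) {g : ℕ → Ω}
    (hg : ∀ j, g j ∈ fixRing A K)
    (hrel : Near A p γ (ϖ ^ d - ∑ j ∈ Finset.range d, g j * ϖ ^ j))
    (hϖ' : ϖ' ∈ A) (hnear : Near A p (1 / (eN : ℚ)) ϖ')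
    (hrel' : Near A p γ (ϖ' ^ d - ∑ j ∈ Finset.range d, ψ (g j) * ϖ' ^ j)) :
    ∃ φ : Ω → Ω, IsTwist A p N γ φ ∧
      (∀ x y : Ω, x ∈ fixRing A N → Rel A p K γ ψ ϖ ϖ' d x y → Near A p γ (φ x - y)) ∧
      ∀ x ∈ fixRing A N, ∃ a : ℕ → Ω, (∀ j, a j ∈ fixRing A K) ∧
        φ x = ∑ j ∈ Finset.range d, ψ (a j) * ϖ' ^ j := by
  have hex : ∀ x, x ∈ fixRing A N → ∃ a : ℕ → Ω, (∀ j, a j ∈ fixRing A K) ∧
      Near A p γ (x - ∑ j ∈ Finset.range d, a j * ϖ ^ j) := fun x hx =>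
    exists_expansion h hN hK hNK he hd hx γ
  choose! a ha hanear using hex
  set φ : Ω → Ω := fun x => ∑ j ∈ Finset.range d, ψ (a x j) * ϖ' ^ j with hφ
  have hφrel : ∀ x ∈ fixRing A N, Rel A p K γ ψ ϖ ϖ' d x (φ x) := fun x hx =>
    ⟨a x, ha x hx, hanear x hx, Or.inl (sub_self _)⟩
  have hsubψ : ∀ c ∈ fixRing A K, Near A p γ (ψ (-c) + ψ c) := fun c hc => by
    have h1 := hψ.hom.add (-c) (neg_mem hc) c hc
    rw [neg_add_cancel] at h1
    have h2 := h.near_sub hψ.hom.zero h1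
    rwa [show ψ 0 - (ψ 0 - ψ (-c) - ψ c) = ψ (-c) + ψ c by ring] at h2
  have hnegrel : ∀ {x y : Ω}, Rel A p K γ ψ ϖ ϖ' d x y → Rel A p K γ ψ ϖ ϖ' d (-x) (-y) := by
    rintro x y ⟨b, hb, h1, h2⟩
    refine ⟨fun j => -b j, fun j => neg_mem (hb j), ?_, ?_⟩
    · have := h.near_neg h1
      simpa only [neg_mul, Finset.sum_neg_distrib, neg_sub, sub_neg_eq_add, neg_add_eq_sub] using this
    · have e1 : Near A p γ (-(∑ j ∈ Finset.range d, ψ (b j) * ϖ' ^ j) -
          ∑ j ∈ Finset.range d, ψ (-b j) * ϖ' ^ j) := by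
        rw [← neg_add', ← Finset.sum_add_distrib]
        refine h.near_neg (h.near_sum _ _ fun j _ => ?_)
        rw [← add_mul, add_comm]
        exact h.near_mul_right (hsubψ _ (hb j)) (pow_mem hϖ' j)
      have := h.near_neg h2
      rw [neg_sub'] at this
      exact h.near_trans this e1
  have huniq : ∀ x y : Ω, x ∈ fixRing A N → Rel A p K γ ψ ϖ ϖ' d x y →
      Near A p γ (φ x - y) := fun x y hx hr => by
    have := Rel.add h hψ hϖ' (hφrel x hx) (hnegrel hr)
    rw [add_neg_cancel] at this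
    rw [sub_eq_add_neg]
    exact Rel.functional h hN hK hψ he hϖ' hnear le_rfl this (near_zero γ)
  have hconst : ∀ c ∈ fixRing A K, Rel A p K γ ψ ϖ ϖ' d c (ψ c) := by
    intro c hc
    refine ⟨fun j => if j = 0 then c else 0, fun j => by
      dsimp only; split
      · exact hc
      · exact zero_mem _, Or.inl ?_, ?_⟩
    · rw [sub_eq_zero, Finset.sum_eq_single 0 (fun j _ hj0 => by simp [hj0])
        (fun h0 => absurd (Finset.mem_range.2 hd) h0)]
      simp
    · rw [← Finset.sum_erase_add _ _ (Finset.mem_range.2 hd)]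
      simp only [if_true, pow_zero, mul_one, sub_add_cancel_right]
      refine h.near_neg (h.near_sum _ _ fun j hj => ?_)
      rw [if_neg (Finset.mem_erase.1 hj).1]
      exact h.near_mul_right hψ.hom.zero (pow_mem hϖ' j)
  have hshift : ∀ x y : Ω, Rel A p K γ ψ ϖ ϖ' d x y →
      Rel A p K γ ψ ϖ ϖ' d (ϖ * x) (ϖ' * y) := by
    rintro x y ⟨b, hb, h1, h2⟩
    obtain ⟨d, rfl⟩ : ∃ k, d = k + 1 := ⟨d - 1, by omega⟩
    have hlow : Rel A p K γ ψ ϖ ϖ' (d + 1) (∑ j ∈ Finset.range d, b j * ϖ ^ (j + 1))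
        (∑ j ∈ Finset.range d, ψ (b j) * ϖ' ^ (j + 1)) := by
      refine ⟨fun j => if j = 0 then 0 else b (j - 1), fun j => by
        dsimp only; split
        · exact zero_mem _
        · exact hb _, Or.inl ?_, ?_⟩
      · rw [sub_eq_zero, Finset.sum_range_succ' _ d]
        simp
      · rw [Finset.sum_range_succ' _ d]
        simp only [add_eq_zero, one_ne_zero, and_false, if_false, Nat.add_sub_cancel, if_true,
          pow_zero, mul_one, sub_add_cancel_left]
        exact h.near_neg hψ.hom.zero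
    have htop : Rel A p K γ ψ ϖ ϖ' (d + 1) (b d * ϖ ^ (d + 1)) (ψ (b d) * ϖ' ^ (d + 1)) :=
      Rel.smul h hψ hϖ' (hb d) ⟨g, hg, hrel, hrel'⟩
    refine Rel.perturb h (Rel.add h hψ hϖ' hlow htop) ?_ ?_
    · have := h.near_mul_left hN.mem.1 h1
      rw [mul_sub, Finset.mul_sum, Finset.sum_range_succ] at this
      rw [Finset.sum_congr rfl fun j _ => show ϖ * (b j * ϖ ^ j) = b j * ϖ ^ (j + 1) by ring,
        show ϖ * (b d * ϖ ^ d) = b d * ϖ ^ (d + 1) by ring] at this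
      exact this
    · have := h.near_mul_left hϖ' h2
      rw [mul_sub, Finset.mul_sum, Finset.sum_range_succ] at this
      rw [Finset.sum_congr rfl fun j _ => show ϖ' * (ψ (b j) * ϖ' ^ j) = ψ (b j) * ϖ' ^ (j + 1) by ring,
        show ϖ' * (ψ (b d) * ϖ' ^ d) = ψ (b d) * ϖ' ^ (d + 1) by ring] at this
      exact this
  have hpowshift : ∀ (j : ℕ) (x y : Ω), Rel A p K γ ψ ϖ ϖ' d x y →
      Rel A p K γ ψ ϖ ϖ' d (ϖ ^ j * x) (ϖ' ^ j * y) := by
    intro j
    induction j with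
    | zero => intro x y hr; simpa using hr
    | succ j ih =>
      intro x y hr
      have := hshift _ _ (ih x y hr)
      rwa [← mul_assoc, ← mul_assoc, ← pow_succ', ← pow_succ'] at this
  have hmul : ∀ x ∈ fixRing A N, ∀ y ∈ fixRing A N,
      Rel A p K γ ψ ϖ ϖ' d (x * y) (φ x * φ y) := by
    intro x hx y hy
    have key : ∀ s : Finset ℕ, Rel A p K γ ψ ϖ ϖ' d ((∑ j ∈ s, a x j * ϖ ^ j) * y)
        ((∑ j ∈ s, ψ (a x j) * ϖ' ^ j) * φ y) := by
      intro s
      induction s using Finset.induction_on with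
      | empty =>
        simp only [Finset.sum_empty, zero_mul]
        exact Rel.perturb h (hconst 0 (zero_mem _)) (Or.inl (sub_self _))
          (by rw [zero_sub]; exact h.near_neg hψ.hom.zero)
      | insert j t hj ih =>
        rw [Finset.sum_insert hj, Finset.sum_insert hj, add_mul, add_mul, mul_assoc, mul_assoc]
        exact Rel.add h hψ hϖ'
          (Rel.smul h hψ hϖ' (ha x hx j) (hpowshift j _ _ (hφrel y hy))) ih
    refine Rel.perturb h (key (Finset.range d)) ?_ (Or.inl (sub_self _))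
    rw [← sub_mul]
    exact h.near_mul_right (hanear x hx) hy.1
  refine ⟨φ, ⟨⟨fun x hx => sum_mem fun j _ => mul_mem (hψ.hom.mem _ (ha x hx j)) (pow_mem hϖ' j),
    fun x hx y hy => ?_, fun x hx y hy => huniq _ _ (mul_mem hx hy) (hmul x hx y hy),
    fun x hx => ?_⟩, fun x hx δ hδ hxn => Rel.functional h hN hK hψ he hϖ' hnear hδ (hφrel x hx) hxn⟩,
    huniq, fun x hx => ⟨a x, ha x hx, rfl⟩⟩
  · rw [sub_sub]
    exact huniq _ _ (add_mem hx hy) (Rel.add h hψ hϖ' (hφrel x hx) (hφrel y hy))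
  · exact h.near_trans (huniq _ _ (fixRing_mono (hNK.trans hK.le) hx)
      (hconst x (fixRing_mono hK.le hx))) (hψ.hom.fixed x hx)

omit h in
/-- The stabiliser of an element inside a subgroup. -/
def stabIn (K : Subgroup G_ℚ) (x : Ω) : Subgroup G_ℚ where
  carrier := {σ | σ ∈ K ∧ σ x = x}
  mul_mem' {a b} ha hb := ⟨mul_mem ha.1 hb.1, by rw [AlgEquiv.mul_apply, hb.2, ha.2]⟩
  one_mem' := ⟨one_mem _, rfl⟩
  inv_mem' {a} ha := ⟨inv_mem ha.1, by
    show a.symm x = x
    rw [AlgEquiv.symm_apply_eq, ha.2]⟩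

omit h in
/-- The stabiliser of a root has index at most the degree. -/
lemma index_stabIn {K : Subgroup G_ℚ} {x : Ω} {P : Polynomial Ω} (hP : P ≠ 0)
    (hroot : ∀ σ ∈ K, P.IsRoot (σ x)) :
    ((stabIn K x).subgroupOf K).FiniteIndex ∧
      ((stabIn K x).subgroupOf K).index ≤ P.natDegree := by
  let f : K ⧸ (stabIn K x).subgroupOf K → {z // z ∈ P.roots.toFinset} :=
    fun q => ⟨((q.out : K) : G_ℚ) x, Multiset.mem_toFinset.2
      ((Polynomial.mem_roots hP).2 (hroot _ (q.out : K).2))⟩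
  have hf : Function.Injective f := fun q q' hqq => by
    have e : ((q.out : K) : G_ℚ) x = ((q'.out : K) : G_ℚ) x := congrArg Subtype.val hqq
    rw [← QuotientGroup.out_eq' q, ← QuotientGroup.out_eq' q', QuotientGroup.eq,
      Subgroup.mem_subgroupOf]
    refine ⟨((q.out : K)⁻¹ * (q'.out : K)).2, ?_⟩
    show ((q.out : K) : G_ℚ).symm (((q'.out : K) : G_ℚ) x) = x
    rw [AlgEquiv.symm_apply_eq, e]
  have : Finite (K ⧸ (stabIn K x).subgroupOf K) := Finite.of_injective f hf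
  refine ⟨Subgroup.finiteIndex_of_finite_quotient, ?_⟩
  rw [Subgroup.index]
  refine (Nat.card_le_card_of_injective f hf).trans ?_
  rw [Nat.card_eq_fintype_card, Fintype.card_coe]
  exact (Multiset.toFinset_card_le _).trans (Polynomial.card_roots' P)

/-- Extension to a finite level, with a subgroup of small index fixing the image. -/
theorem exists_extension (hK : IsLevel A p K π eK) (hψ : IsTwist A p K γ ψ) (hγ : 1 ≤ γ)
    (hNK : N ≤ K) [hfin : (N.subgroupOf K).FiniteIndex]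
    [(N.subgroupOf (A.inertiaSubgroupIn ℚ)).FiniteIndex]
    {K' : Subgroup G_ℚ} (hfix : ∀ τ ∈ K', ∀ a ∈ fixRing A K, τ (ψ a) = ψ a) :
    ∃ φ : Ω → Ω, IsTwist A p N γ φ ∧ (∀ a ∈ fixRing A K, Near A p γ (φ a - ψ a)) ∧
      ∃ K'' ≤ K', (∀ τ ∈ K'', ∀ x ∈ fixRing A N, τ (φ x) = φ x) ∧
        (K''.subgroupOf K').FiniteIndex ∧
        (K''.subgroupOf K').index ≤ (N.subgroupOf K).index := by
  obtain ⟨ϖ, eN, hN⟩ := exists_level h (hNK.trans hK.le)
  obtain ⟨d, hd, he, hdle⟩ := exists_dvd h hN hK hNK hfin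
  obtain ⟨g, hg, hrel⟩ := exists_expansion h hN hK hNK he hd (pow_mem hN.mem d) γ
  have heN : (0 : ℚ) < eN := by exact_mod_cast hN.pos
  have hdN : (d : ℚ) / eN ≤ γ := by
    refine le_trans ?_ hγ
    rw [div_le_one heN, Nat.cast_le, he]
    exact Nat.le_mul_of_pos_right d hK.pos
  -- the new equation and a root of it
  obtain ⟨P, hP⟩ : ∃ P : Polynomial Ω, P = Polynomial.X ^ d -
      ∑ j ∈ Finset.range d, Polynomial.C (ψ (g j)) * Polynomial.X ^ j := ⟨_, rfl⟩
  have hdegsum : (∑ j ∈ Finset.range d, Polynomial.C (ψ (g j)) * Polynomial.X ^ j).degree <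
      (Polynomial.X ^ d : Polynomial Ω).degree := by
    rw [Polynomial.degree_X_pow]
    refine lt_of_le_of_lt (Polynomial.degree_sum_le _ _) ?_
    refine (Finset.sup_lt_iff (WithBot.bot_lt_coe d)).2 ?_
    exact fun j hj => lt_of_le_of_lt (Polynomial.degree_C_mul_X_pow_le _ _)
        (WithBot.coe_lt_coe.2 (Finset.mem_range.1 hj))
  have hPdeg : P.degree = d := by
    rw [hP, Polynomial.degree_sub_eq_left_of_degree_lt hdegsum, Polynomial.degree_X_pow]
  have hP0 : P ≠ 0 := fun e => by simp [e] at hPdeg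
  obtain ⟨ϖ', hroot⟩ := IsAlgClosed.exists_root P (by rw [hPdeg]; exact_mod_cast hd.ne')
  have heval : ∀ z, P.eval z = z ^ d - ∑ j ∈ Finset.range d, ψ (g j) * z ^ j := fun z => by
    rw [hP]; simp [Polynomial.eval_finsetSum]
  have hroot' : ϖ' ^ d = ∑ j ∈ Finset.range d, ψ (g j) * ϖ' ^ j :=
    sub_eq_zero.1 ((heval ϖ').symm.trans hroot)
  -- the value of the root
  have hgnear : ∀ j, j < d → Near A p (((d : ℚ) - j) / eN) (ψ (g j)) := fun j hj => by
    have h1 : Near A p ((d : ℚ) / eN) (∑ j ∈ Finset.range d, g j * ϖ ^ j) := by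
      have h2 : Near A p ((d : ℚ) / eN) (ϖ ^ d) :=
        Or.inr (by rw [h.ord_pow hN.ne, hN.ord_eq, mul_one_div])
      have := h.near_sub h2 (hrel.mono hdN)
      rwa [sub_sub_cancel] at this
    have h3 := near_coeff h hN hK he hg h1 hj
    rw [← sub_div] at h3
    refine hψ.near _ (hg j) _ (le_trans ?_ hdN) h3
    exact div_le_div_of_nonneg_right (sub_le_self _ (Nat.cast_nonneg j)) heN.le
  have hnear : Near A p (1 / (eN : ℚ)) ϖ' := by
    rcases eq_or_ne ϖ' 0 with e | h0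
    · exact Or.inl e
    refine Or.inr ?_
    by_contra hlt
    push Not at hlt
    have hsmall : ∀ j ∈ Finset.range d, ψ (g j) * ϖ' ^ j = 0 ∨ (ψ (g j) * ϖ' ^ j ≠ 0 ∧
        (d : ℚ) * ord A p ϖ' < ord A p (ψ (g j) * ϖ' ^ j)) := by
      intro j hj
      rcases hgnear j (Finset.mem_range.1 hj) with e | hle
      · exact Or.inl (by rw [e, zero_mul])
      rcases eq_or_ne (ψ (g j)) 0 with e | hne
      · exact Or.inl (by rw [e, zero_mul])
      refine Or.inr ⟨mul_ne_zero hne (pow_ne_zero _ h0), ?_⟩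
      rw [h.ord_mul hne (pow_ne_zero _ h0), h.ord_pow h0]
      have hpos : (0 : ℚ) < (d : ℚ) - j := by
        rw [sub_pos]; exact_mod_cast Finset.mem_range.1 hj
      have : ((d : ℚ) - j) * ord A p ϖ' < ((d : ℚ) - j) / eN := by
        rw [← mul_one_div]; exact mul_lt_mul_of_pos_left hlt hpos
      linarith
    have hv : A.valuation (∑ j ∈ Finset.range d, ψ (g j) * ϖ' ^ j) < A.valuation (ϖ' ^ d) := by
      refine A.valuation.map_sum_lt (fun e => pow_ne_zero d h0 ((map_eq_zero _).1 e)) fun j hj => ?_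
      rcases hsmall j hj with e | ⟨hne, hlt'⟩
      · rw [e, map_zero]; exact A.valuation.pos_iff.2 (pow_ne_zero d h0)
      · exact (h.valuation_lt_iff hne (pow_ne_zero d h0)).2 (by rw [h.ord_pow h0]; exact hlt')
    rw [← hroot'] at hv
    exact lt_irrefl _ hv
  have hϖ'A : ϖ' ∈ A := h.mem_of_near hnear (by positivity)
  obtain ⟨φ, hφ, huniq, hformula⟩ := exists_twist h hN hK hNK hd he hψ hg hrel hϖ'A hnear
    (Or.inl (by rw [hroot', sub_self]))
  refine ⟨φ, hφ, fun c hc => huniq c (ψ c) (fixRing_mono hNK hc) ⟨fun j => if j = 0 then c else 0,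
    fun j => by dsimp only; split
                · exact hc
                · exact zero_mem _, Or.inl ?_, ?_⟩,
    stabIn K' ϖ', fun σ hσ => hσ.1, fun τ hτ x hx => ?_, ?_⟩
  · rw [sub_eq_zero, Finset.sum_eq_single 0 (fun j _ hj0 => by simp [hj0])
      (fun h0 => absurd (Finset.mem_range.2 hd) h0)]
    simp
  · rw [← Finset.sum_erase_add _ _ (Finset.mem_range.2 hd)]
    simp only [if_true, pow_zero, mul_one, sub_add_cancel_right]
    refine h.near_neg (h.near_sum _ _ fun j hj => ?_)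
    rw [if_neg (Finset.mem_erase.1 hj).1]
    exact h.near_mul_right hψ.hom.zero (pow_mem hϖ'A j)
  · obtain ⟨a, ha, e⟩ := hformula x hx
    rw [e, map_sum]
    exact Finset.sum_congr rfl fun j _ => by rw [map_mul, map_pow, hτ.2, hfix τ hτ.1 _ (ha j)]
  · obtain ⟨hfin', hle⟩ := index_stabIn (K := K') (x := ϖ') hP0 fun σ hσ => by
      show P.eval (σ ϖ') = 0
      rw [heval, sub_eq_zero, ← map_pow, hroot', map_sum]
      exact Finset.sum_congr rfl fun j _ => by rw [map_mul, map_pow, hfix σ hσ _ (hg j)]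
    exact ⟨hfin', hle.trans ((Polynomial.natDegree_eq_of_degree_eq_some hPdeg).le.trans hdle)⟩

end Fermat.Agent.Mazur.Twist

end
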